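/-
S21 (UP2), abstract part (helper1): an elementary upper bound for the dimension of the space of
"parabolic" characters `Γ → ℂ` of a finite-index subgroup `Γ` of a group `G` generated by two
elements `s`, `u` with `s² = u³` central of order `≤ 2` in `Γ`.

Shapiro cocycle on `M = (G ⧸ Γ → ℂ)`; no free-product structure is used, only generation.
-/
import Mathlib

set_option autoImplicit false
set_option linter.unusedSectionVars false
set_option linter.style.haveILetI false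

open Classical

noncomputable section

namespace Fermat.Agent.S21.ParAbstract

section Cocycle

variable {G : Type*} [Group G] (Γ : Subgroup G)

/-- extension by zero of a character of `Γ` to a function on `G`. -/
def ext0 (φ : Additive Γ →+ ℂ) (g : G) : ℂ :=
  if h : g ∈ Γ then φ (Additive.ofMul ⟨g, h⟩) else 0

variable {Γ}

lemma ext0_of_mem (φ : Additive Γ →+ ℂ) {g : G} (h : g ∈ Γ) :
    ext0 Γ φ g = φ (Additive.ofMul ⟨g, h⟩) := dif_pos h

lemma ext0_one (φ : Additive Γ →+ ℂ) : ext0 Γ φ 1 = 0 := by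
  rw [ext0_of_mem φ Γ.one_mem]
  exact map_zero φ

lemma ext0_mul (φ : Additive Γ →+ ℂ) {a b : G} (ha : a ∈ Γ) (hb : b ∈ Γ) :
    ext0 Γ φ (a * b) = ext0 Γ φ a + ext0 Γ φ b := by
  rw [ext0_of_mem φ ha, ext0_of_mem φ hb, ext0_of_mem φ (Γ.mul_mem ha hb), ← map_add]
  rfl

lemma ext0_inv (φ : Additive Γ →+ ℂ) {a : G} (ha : a ∈ Γ) :
    ext0 Γ φ a⁻¹ = - ext0 Γ φ a := by
  have h := ext0_mul φ ha (Γ.inv_mem ha)
  rw [mul_inv_cancel, ext0_one] at h
  exact eq_neg_of_add_eq_zero_right h.symm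

lemma ext0_conj (φ : Additive Γ →+ ℂ) {a γ : G} (ha : a ∈ Γ) (hγ : γ ∈ Γ) :
    ext0 Γ φ (a⁻¹ * γ * a) = ext0 Γ φ γ := by
  rw [ext0_mul φ (Γ.mul_mem (Γ.inv_mem ha) hγ) ha, ext0_mul φ (Γ.inv_mem ha) hγ, ext0_inv φ ha]
  ring

lemma ext0_add (φ ψ : Additive Γ →+ ℂ) (g : G) :
    ext0 Γ (φ + ψ) g = ext0 Γ φ g + ext0 Γ ψ g := by
  unfold ext0
  split_ifs <;> simp

lemma ext0_smul (c : ℂ) (φ : Additive Γ →+ ℂ) (g : G) :
    ext0 Γ (c • φ) g = c * ext0 Γ φ g := by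
  unfold ext0
  split_ifs <;> simp

/-- chosen coset representatives. -/
def rep (x : G ⧸ Γ) : G := Quotient.out x

lemma mk_rep (x : G ⧸ Γ) : ((rep x : G) : G ⧸ Γ) = x := QuotientGroup.out_eq' x

lemma rep_mem (g : G) (x : G ⧸ Γ) : (rep x)⁻¹ * g * rep (g⁻¹ • x) ∈ Γ := by
  rw [mul_assoc, ← QuotientGroup.eq, mk_rep]
  have : ((g * rep (g⁻¹ • x) : G) : G ⧸ Γ) = g • ((rep (g⁻¹ • x) : G) : G ⧸ Γ) := rfl
  rw [this, mk_rep, smul_inv_smul]

/-- The (coboundary-twisted) Shapiro cocycle attached to a character `φ` and a function `m`. -/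
def coc (φ : Additive Γ →+ ℂ) (m : G ⧸ Γ → ℂ) (g : G) (x : G ⧸ Γ) : ℂ :=
  ext0 Γ φ ((rep x)⁻¹ * g * rep (g⁻¹ • x)) + m (g⁻¹ • x) - m x

lemma coc_mul (φ : Additive Γ →+ ℂ) (m : G ⧸ Γ → ℂ) (g h : G) (x : G ⧸ Γ) :
    coc φ m (g * h) x = coc φ m g x + coc φ m h (g⁻¹ • x) := by
  unfold coc
  have e : (rep x)⁻¹ * (g * h) * rep ((g * h)⁻¹ • x)
      = ((rep x)⁻¹ * g * rep (g⁻¹ • x)) * ((rep (g⁻¹ • x))⁻¹ * h * rep (h⁻¹ • g⁻¹ • x)) := by
    rw [mul_inv_rev, mul_smul]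
    group
  rw [e, ext0_mul φ (rep_mem g x) (rep_mem h (g⁻¹ • x)), mul_inv_rev, mul_smul]
  ring

lemma coc_one (φ : Additive Γ →+ ℂ) (m : G ⧸ Γ → ℂ) (x : G ⧸ Γ) : coc φ m 1 x = 0 := by
  have h := coc_mul φ m 1 1 x
  rw [mul_one, inv_one, one_smul] at h
  have : coc φ m 1 x + coc φ m 1 x = coc φ m 1 x + 0 := by rw [add_zero]; exact h.symm
  exact add_left_cancel this

lemma coc_inv (φ : Additive Γ →+ ℂ) (m : G ⧸ Γ → ℂ) (g : G) (x : G ⧸ Γ) :
    coc φ m g⁻¹ x = - coc φ m g (g • x) := by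
  have h := coc_mul φ m g⁻¹ g x
  rw [inv_mul_cancel, coc_one, inv_inv] at h
  exact eq_neg_of_add_eq_zero_left h.symm

/-- the set where the cocycle vanishes identically is a subgroup. -/
def vanish (φ : Additive Γ →+ ℂ) (m : G ⧸ Γ → ℂ) : Subgroup G where
  carrier := {g | ∀ x, coc φ m g x = 0}
  mul_mem' := by
    intro g h hg hh x
    rw [coc_mul, hg x, hh _, add_zero]
  one_mem' := fun x => coc_one φ m x
  inv_mem' := by
    intro g hg x
    rw [coc_inv, hg _, neg_zero]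

lemma mem_vanish {φ : Additive Γ →+ ℂ} {m : G ⧸ Γ → ℂ} {g : G} :
    g ∈ vanish φ m ↔ ∀ x, coc φ m g x = 0 := Iff.rfl

/-- the value of the cocycle at `γ ∈ Γ` at the base point is `φ γ`. -/
lemma coc_base (φ : Additive Γ →+ ℂ) (m : G ⧸ Γ → ℂ) {γ : G} (hγ : γ ∈ Γ) :
    coc φ m γ ((1 : G) : G ⧸ Γ) = ext0 Γ φ γ := by
  unfold coc
  have hx : γ⁻¹ • (((1 : G) : G ⧸ Γ)) = ((1 : G) : G ⧸ Γ) := by
    show ((γ⁻¹ * 1 : G) : G ⧸ Γ) = _
    rw [QuotientGroup.eq]
    simpa using hγ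
  rw [hx, add_sub_cancel_right]
  have hr : rep (((1 : G) : G ⧸ Γ)) ∈ Γ := by
    have := mk_rep (((1 : G) : G ⧸ Γ))
    rw [QuotientGroup.eq] at this
    simpa using Γ.inv_mem this
  exact ext0_conj φ hr hγ

end Cocycle

section Orbits

variable {G X : Type*} [Group G] [MulAction G X]

/-- the norm operator `∑_{i<n} g^i` on functions (`(g m)(x) = m (g⁻¹ x)`). -/
def normOp (g : G) (n : ℕ) : (X → ℂ) →ₗ[ℂ] (X → ℂ) :=
  ∑ i ∈ Finset.range n, LinearMap.funLeft ℂ ℂ (fun x : X => (g⁻¹) ^ i • x)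

lemma normOp_apply (g : G) (n : ℕ) (m : X → ℂ) (x : X) :
    normOp g n m x = ∑ i ∈ Finset.range n, m ((g⁻¹) ^ i • x) := by
  unfold normOp
  rw [LinearMap.sum_apply, Finset.sum_apply]
  rfl

/-- the invariant functions. -/
def invFun (g : G) : Submodule ℂ (X → ℂ) where
  carrier := {m | ∀ x, m (g⁻¹ • x) = m x}
  add_mem' := by
    intro a b ha hb x
    simp only [Pi.add_apply, ha x, hb x]
  zero_mem' := fun _ => rfl
  smul_mem' := by
    intro c a ha x
    simp only [Pi.smul_apply, ha x]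

lemma mem_invFun {g : G} {m : X → ℂ} : m ∈ invFun g ↔ ∀ x, m (g⁻¹ • x) = m x := Iff.rfl

lemma invFun_pow {g : G} {m : X → ℂ} (hm : m ∈ invFun g) (i : ℕ) (x : X) :
    m ((g⁻¹) ^ i • x) = m x := by
  induction i with
  | zero => simp
  | succ i ih => rw [pow_succ', mul_smul, hm, ih]

lemma invFun_zpowers {g : G} {m : X → ℂ} (hm : m ∈ invFun g) (h : Subgroup.zpowers g) (x : X) :
    m (h • x) = m x := by
  obtain ⟨h, k, rfl⟩ := h
  show m (g ^ k • x) = m x
  have key : ∀ i : ℕ, ∀ y : X, m (g ^ i • y) = m y := by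
    intro i
    induction i with
    | zero => intro y; simp
    | succ i ih =>
        intro y
        have := hm (g ^ (i + 1) • y)
        rw [← this, ← mul_smul, pow_succ', inv_mul_cancel_left]
        exact ih y
  rcases Int.eq_nat_or_neg k with ⟨i, rfl | rfl⟩
  · simpa using key i x
  · have := key i (g ^ (-(i : ℤ)) • x)
    rw [← mul_smul, ← zpow_natCast, ← zpow_add] at this
    simp only [add_neg_cancel, zpow_zero, one_smul] at this
    exact this.symm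

lemma range_normOp (g : G) (n : ℕ) (hn : 0 < n) (hg : ∀ x : X, g ^ n • x = x) :
    LinearMap.range (normOp (X := X) g n) = invFun g := by
  have hg' : ∀ x : X, (g⁻¹) ^ n • x = x := by
    intro x
    have := hg ((g⁻¹) ^ n • x)
    rw [← mul_smul, inv_pow, mul_inv_cancel, one_smul] at this
    rw [inv_pow]
    exact this.symm
  apply le_antisymm
  · rintro _ ⟨m, rfl⟩ x
    rw [normOp_apply, normOp_apply]
    have e : ∀ i, m ((g⁻¹) ^ i • g⁻¹ • x) = m ((g⁻¹) ^ (i + 1) • x) := by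
      intro i
      rw [pow_succ, mul_smul]
    simp only [e]
    have h1 := Finset.sum_range_succ' (fun i => m ((g⁻¹) ^ i • x)) n
    have h2 := Finset.sum_range_succ (fun i => m ((g⁻¹) ^ i • x)) n
    simp only [pow_zero, one_smul] at h1
    rw [hg' x] at h2
    have h3 := h1.symm.trans h2
    exact add_right_cancel h3
  · intro m hm
    refine ⟨(n : ℂ)⁻¹ • m, ?_⟩
    funext x
    rw [normOp_apply]
    have : ∀ i ∈ Finset.range n, ((n : ℂ)⁻¹ • m) ((g⁻¹) ^ i • x) = (n : ℂ)⁻¹ * m x := by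
      intro i _
      rw [Pi.smul_apply, invFun_pow hm, smul_eq_mul]
    rw [Finset.sum_congr rfl this, Finset.sum_const, Finset.card_range, nsmul_eq_mul, ← mul_assoc,
      mul_inv_cancel₀ (by exact_mod_cast hn.ne'), one_mul]

end Orbits

section Count

variable {G X : Type*} [Group G] [MulAction G X] [Finite X]

/-- pull back functions from the orbit space. -/
def pullQ (g : G) :
    (MulAction.orbitRel.Quotient (Subgroup.zpowers g) X → ℂ) →ₗ[ℂ] (X → ℂ) :=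
  LinearMap.funLeft ℂ ℂ
    (fun x : X => (Quotient.mk'' x : MulAction.orbitRel.Quotient (Subgroup.zpowers g) X))

lemma pullQ_injective (g : G) : Function.Injective (pullQ (X := X) g) :=
  LinearMap.funLeft_injective_of_surjective ℂ ℂ _ Quotient.mk''_surjective

lemma range_pullQ (g : G) : LinearMap.range (pullQ (X := X) g) = invFun g := by
  apply le_antisymm
  · rintro _ ⟨f, rfl⟩ x
    show f (Quotient.mk'' (g⁻¹ • x)) = f (Quotient.mk'' x)
    congr 1
    apply Quotient.sound'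
    exact ⟨⟨g⁻¹, Subgroup.inv_mem _ (Subgroup.mem_zpowers g)⟩, rfl⟩
  · intro m hm
    refine ⟨fun q => m q.out, ?_⟩
    funext x
    show m (Quotient.out (Quotient.mk'' x : MulAction.orbitRel.Quotient (Subgroup.zpowers g) X))
      = m x
    have h1 : (Quotient.mk'' (Quotient.out (Quotient.mk'' x :
        MulAction.orbitRel.Quotient (Subgroup.zpowers g) X)) :
        MulAction.orbitRel.Quotient (Subgroup.zpowers g) X) = Quotient.mk'' x := Quotient.out_eq' _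
    have h2 := Quotient.exact' h1
    obtain ⟨h, hh⟩ := h2
    rw [← hh]
    exact invFun_zpowers hm h x

theorem finrank_invFun (g : G) :
    Module.finrank ℂ (invFun (X := X) g)
      = Nat.card (MulAction.orbitRel.Quotient (Subgroup.zpowers g) X) := by
  haveI : Fintype (MulAction.orbitRel.Quotient (Subgroup.zpowers g) X) := Fintype.ofFinite _
  rw [← range_pullQ, LinearMap.finrank_range_of_inj (pullQ_injective g),
    Module.finrank_fintype_fun_eq_card, Nat.card_eq_fintype_card]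

theorem finrank_ker_normOp (g : G) (n : ℕ) (hn : 0 < n) (hg : ∀ x : X, g ^ n • x = x) :
    Module.finrank ℂ (LinearMap.ker (normOp (X := X) g n))
      + Nat.card (MulAction.orbitRel.Quotient (Subgroup.zpowers g) X) = Nat.card X := by
  haveI : Fintype X := Fintype.ofFinite _
  have h := LinearMap.finrank_range_add_finrank_ker (normOp (X := X) g n)
  rw [range_normOp g n hn hg, finrank_invFun, Module.finrank_fintype_fun_eq_card] at h
  rw [Nat.card_eq_fintype_card (α := X)]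
  omega

end Count

section Main

variable {G : Type*} [Group G] {Γ : Subgroup G}

/-- generation data: `G = ⟨s, u⟩`, `s² = u³ = w` central, `w ∈ Γ`, `w² = 1`. -/
structure GenData (Γ : Subgroup G) where
  s : G
  u : G
  w : G
  gen : Subgroup.closure {s, u} = ⊤
  hs : s * s = w
  hu : u * u * u = w
  w_central : ∀ g, w * g = g * w
  w_mem : w ∈ Γ
  w_sq : w * w = 1

namespace GenData

variable (D : GenData Γ)

/-- the "translation" `t = s⁻¹ u`. -/
def t : G := D.s⁻¹ * D.u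

lemma w_smul (x : G ⧸ Γ) : D.w • x = x := by
  induction x using QuotientGroup.induction_on with
  | H g =>
    show ((D.w * g : G) : G ⧸ Γ) = g
    rw [D.w_central, QuotientGroup.eq]
    simpa using D.w_mem

lemma w_inv_smul (x : G ⧸ Γ) : D.w⁻¹ • x = x := by
  have h := D.w_smul (D.w⁻¹ • x)
  rw [smul_inv_smul] at h
  exact h.symm

lemma s_smul_s_smul (x : G ⧸ Γ) : D.s • D.s • x = x := by
  rw [← mul_smul, D.hs, D.w_smul]

lemma s_inv_smul (x : G ⧸ Γ) : D.s⁻¹ • x = D.s • x := by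
  rw [inv_smul_eq_iff, D.s_smul_s_smul]

lemma u_smul_cube (x : G ⧸ Γ) : D.u • D.u • D.u • x = x := by
  rw [← mul_smul, ← mul_smul, D.hu, D.w_smul]

lemma s_pow_smul (x : G ⧸ Γ) : D.s ^ 2 • x = x := by
  rw [pow_two, mul_smul, D.s_smul_s_smul]

lemma u_pow_smul (x : G ⧸ Γ) : D.u ^ 3 • x = x := by
  rw [pow_succ, pow_two, mul_smul, mul_smul, D.u_smul_cube]

lemma ext0_w (φ : Additive Γ →+ ℂ) : ext0 Γ φ D.w = 0 := by
  have h := ext0_mul φ D.w_mem D.w_mem
  rw [D.w_sq, ext0_one] at h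
  have h2 : (2 : ℂ) * ext0 Γ φ D.w = 0 := by rw [two_mul]; exact h.symm
  exact (mul_eq_zero.mp h2).resolve_left two_ne_zero

lemma coc_w (φ : Additive Γ →+ ℂ) (m : G ⧸ Γ → ℂ) (x : G ⧸ Γ) : coc φ m D.w x = 0 := by
  unfold coc
  rw [D.w_inv_smul, add_sub_cancel_right, mul_assoc, D.w_central, ← mul_assoc, inv_mul_cancel,
    one_mul, D.ext0_w]

lemma coc_s (φ : Additive Γ →+ ℂ) (m : G ⧸ Γ → ℂ) (x : G ⧸ Γ) :
    coc φ m D.s x + coc φ m D.s (D.s⁻¹ • x) = 0 := by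
  rw [← coc_mul, D.hs, D.coc_w]

lemma coc_u (φ : Additive Γ →+ ℂ) (m : G ⧸ Γ → ℂ) (x : G ⧸ Γ) :
    coc φ m D.u x + coc φ m D.u (D.u⁻¹ • x) + coc φ m D.u (D.u⁻¹ • D.u⁻¹ • x) = 0 := by
  have h1 := coc_mul φ m (D.u * D.u) D.u x
  have h2 := coc_mul φ m D.u D.u x
  rw [D.hu, D.coc_w, h2, mul_inv_rev, mul_smul] at h1
  exact h1.symm

lemma coc_t (φ : Additive Γ →+ ℂ) (m : G ⧸ Γ → ℂ) (x : G ⧸ Γ) :
    coc φ m D.t x = coc φ m D.u (D.s • x) - coc φ m D.s (D.s • x) := by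
  unfold t
  rw [coc_mul, coc_inv, inv_inv]
  ring

lemma coc_pow (φ : Additive Γ →+ ℂ) (m : G ⧸ Γ → ℂ) (g : G) (n : ℕ) (x : G ⧸ Γ) :
    coc φ m (g ^ n) x = ∑ i ∈ Finset.range n, coc φ m g ((g⁻¹) ^ i • x) := by
  induction n with
  | zero => simp [coc_one]
  | succ n ih =>
    rw [pow_succ, coc_mul, ih, Finset.sum_range_succ, inv_pow]

end GenData

namespace GenData

variable (D : GenData Γ)

/-- `ker (1 + s)` on functions. -/
def Vs : Submodule ℂ (G ⧸ Γ → ℂ) := LinearMap.ker (normOp (X := G ⧸ Γ) D.s 2)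

/-- `ker (1 + u + u²)` on functions. -/
def Vu : Submodule ℂ (G ⧸ Γ → ℂ) := LinearMap.ker (normOp (X := G ⧸ Γ) D.u 3)

lemma mem_Vs {a : G ⧸ Γ → ℂ} : a ∈ D.Vs ↔ ∀ x, a x + a (D.s⁻¹ • x) = 0 := by
  unfold Vs
  rw [LinearMap.mem_ker, funext_iff]
  refine forall_congr' fun x => ?_
  rw [normOp_apply]
  simp [Finset.sum_range_succ]

lemma mem_Vu {b : G ⧸ Γ → ℂ} :
    b ∈ D.Vu ↔ ∀ x, b x + b (D.u⁻¹ • x) + b (D.u⁻¹ • D.u⁻¹ • x) = 0 := by
  unfold Vu
  rw [LinearMap.mem_ker, funext_iff]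
  refine forall_congr' fun x => ?_
  rw [normOp_apply]
  simp [Finset.sum_range_succ, pow_succ, mul_smul]

lemma single_inv_smul (g : G) (p x : G ⧸ Γ) :
    (Pi.single p (1 : ℂ) : G ⧸ Γ → ℂ) (g⁻¹ • x) = (Pi.single (g • p) (1 : ℂ) : G ⧸ Γ → ℂ) x := by
  rw [Pi.single_apply, Pi.single_apply]
  simp only [inv_smul_eq_iff]

/-- differences of delta functions lie in `Vu - Vs`. -/
theorem exists_pair (g : G) :
    ∀ p : G ⧸ Γ, ∃ a ∈ D.Vs, ∃ b ∈ D.Vu,
      b - a = (Pi.single p (1 : ℂ) : G ⧸ Γ → ℂ) - Pi.single (g • p) (1 : ℂ) := by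
  have hg : g ∈ Subgroup.closure {D.s, D.u} := by rw [D.gen]; trivial
  induction hg using Subgroup.closure_induction with
  | mem y hy =>
    intro p
    rcases hy with rfl | rfl
    · refine ⟨-((Pi.single p (1 : ℂ) : G ⧸ Γ → ℂ) - Pi.single (D.s • p) (1 : ℂ)), ?_, 0,
        D.Vu.zero_mem, by simp⟩
      apply D.Vs.neg_mem
      rw [mem_Vs]
      intro x
      simp only [Pi.sub_apply]
      rw [single_inv_smul, single_inv_smul, D.s_smul_s_smul]
      ring
    · refine ⟨0, D.Vs.zero_mem, (Pi.single p (1 : ℂ) : G ⧸ Γ → ℂ) - Pi.single (D.u • p) (1 : ℂ),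
        ?_, by simp⟩
      rw [mem_Vu]
      intro x
      simp only [Pi.sub_apply]
      rw [single_inv_smul, single_inv_smul, single_inv_smul, single_inv_smul, single_inv_smul,
        single_inv_smul, D.u_smul_cube]
      ring
  | one =>
    intro p
    exact ⟨0, D.Vs.zero_mem, 0, D.Vu.zero_mem, by simp⟩
  | mul y z _ _ hy hz =>
    intro p
    obtain ⟨a₁, ha₁, b₁, hb₁, e₁⟩ := hz p
    obtain ⟨a₂, ha₂, b₂, hb₂, e₂⟩ := hy (z • p)
    refine ⟨a₁ + a₂, D.Vs.add_mem ha₁ ha₂, b₁ + b₂, D.Vu.add_mem hb₁ hb₂, ?_⟩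
    rw [mul_smul, add_sub_add_comm, e₁, e₂]
    abel
  | inv y _ hy =>
    intro p
    obtain ⟨a, ha, b, hb, e⟩ := hy (y⁻¹ • p)
    refine ⟨-a, D.Vs.neg_mem ha, -b, D.Vu.neg_mem hb, ?_⟩
    rw [smul_inv_smul] at e
    rw [neg_sub_neg, ← neg_sub, e]
    abel

end GenData

end Main

section CocLinear

variable {G : Type*} [Group G] {Γ : Subgroup G}

lemma coc_add (φ ψ : Additive Γ →+ ℂ) (m m' : G ⧸ Γ → ℂ) (g : G) (x : G ⧸ Γ) :
    coc (φ + ψ) (m + m') g x = coc φ m g x + coc ψ m' g x := by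
  unfold coc
  rw [ext0_add]
  simp only [Pi.add_apply]
  ring

lemma coc_smul (c : ℂ) (φ : Additive Γ →+ ℂ) (m : G ⧸ Γ → ℂ) (g : G) (x : G ⧸ Γ) :
    coc (c • φ) (c • m) g x = c * coc φ m g x := by
  unfold coc
  rw [ext0_smul]
  simp only [Pi.smul_apply, smul_eq_mul]
  ring

lemma ext0_zero (g : G) : ext0 Γ (0 : Additive Γ →+ ℂ) g = 0 := by
  unfold ext0
  split_ifs <;> simp

end CocLinear

section Kernel

variable {G : Type*} [Group G] {Γ : Subgroup G} [Finite (G ⧸ Γ)]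

namespace GenData

variable (D : GenData Γ)

theorem exists_pair' (p p' : G ⧸ Γ) : ∃ a ∈ D.Vs, ∃ b ∈ D.Vu,
    b - a = (Pi.single p (1 : ℂ) : G ⧸ Γ → ℂ) - Pi.single p' (1 : ℂ) := by
  obtain ⟨g, rfl⟩ := MulAction.exists_smul_eq G p p'
  exact D.exists_pair g p

/-- the orbit space of `t`. -/
abbrev Qt : Type _ := MulAction.orbitRel.Quotient (Subgroup.zpowers D.t) (G ⧸ Γ)

/-- the base orbit. -/
def O₀ : D.Qt := Quotient.mk'' (((1 : G) : G ⧸ Γ))

/-- the other orbits. -/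
abbrev I : Type _ := {O : D.Qt // O ≠ D.O₀}

/-- representatives. -/
def y (O : D.I) : G ⧸ Γ := Quotient.out O.1

/-- representative of the base orbit. -/
def y₀ : G ⧸ Γ := Quotient.out D.O₀

lemma mk_y (O : D.I) : (Quotient.mk'' (D.y O) : D.Qt) = O.1 := Quotient.out_eq' _

lemma mk_y₀ : (Quotient.mk'' D.y₀ : D.Qt) = D.O₀ := Quotient.out_eq' _

lemma mk_pow_smul (i : ℕ) (x : G ⧸ Γ) :
    (Quotient.mk'' ((D.t⁻¹) ^ i • x) : D.Qt) = Quotient.mk'' x := by
  apply Quotient.sound'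
  exact ⟨⟨(D.t⁻¹) ^ i, Subgroup.pow_mem _ (Subgroup.inv_mem _ (Subgroup.mem_zpowers D.t)) i⟩, rfl⟩

/-- chosen element of `Vs` for the orbit `O`. -/
def aO (O : D.I) : G ⧸ Γ → ℂ := (D.exists_pair' (D.s • D.y O) (D.s • D.y₀)).choose

/-- chosen element of `Vu` for the orbit `O`. -/
def bO (O : D.I) : G ⧸ Γ → ℂ :=
  (D.exists_pair' (D.s • D.y O) (D.s • D.y₀)).choose_spec.2.choose

lemma aO_mem (O : D.I) : D.aO O ∈ D.Vs :=
  (D.exists_pair' (D.s • D.y O) (D.s • D.y₀)).choose_spec.1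

lemma bO_mem (O : D.I) : D.bO O ∈ D.Vu :=
  (D.exists_pair' (D.s • D.y O) (D.s • D.y₀)).choose_spec.2.choose_spec.1

lemma bO_sub_aO (O : D.I) : D.bO O - D.aO O
    = (Pi.single (D.s • D.y O) (1 : ℂ) : G ⧸ Γ → ℂ) - Pi.single (D.s • D.y₀) (1 : ℂ) :=
  (D.exists_pair' (D.s • D.y O) (D.s • D.y₀)).choose_spec.2.choose_spec.2

lemma bO_sub_aO_apply (O : D.I) (x : G ⧸ Γ) : D.bO O (D.s • x) - D.aO O (D.s • x)
    = (Pi.single (D.y O) (1 : ℂ) : G ⧸ Γ → ℂ) x - (Pi.single D.y₀ (1 : ℂ) : G ⧸ Γ → ℂ) x := by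
  have h := congrFun (D.bO_sub_aO O) (D.s • x)
  simp only [Pi.sub_apply] at h
  rw [h, Pi.single_apply, Pi.single_apply, Pi.single_apply, Pi.single_apply]
  simp only [smul_left_cancel_iff]

/-- a positive exponent killing the action of `t`. -/
lemma exists_pow_smul : ∃ n : ℕ, 0 < n ∧ ∀ x : G ⧸ Γ, D.t ^ n • x = x := by
  have h := isOfFinOrder_of_finite (MulAction.toPermHom G (G ⧸ Γ) D.t)
  refine ⟨orderOf (MulAction.toPermHom G (G ⧸ Γ) D.t), h.orderOf_pos, fun x => ?_⟩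
  have h2 := pow_orderOf_eq_one (MulAction.toPermHom G (G ⧸ Γ) D.t)
  rw [← map_pow] at h2
  have h3 := congrArg (fun π : Equiv.Perm (G ⧸ Γ) => π x) h2
  simpa using h3

end GenData

end Kernel

section KernelThm

variable {G : Type*} [Group G] {Γ : Subgroup G} [Finite (G ⧸ Γ)]

namespace GenData

variable (D : GenData Γ)

/-- parabolicity of a character, abstractly: it kills all conjugates of powers of `t` in `Γ`. -/
def IsPar (φ : Additive Γ →+ ℂ) : Prop :=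
  ∀ (g : G) (k : ℕ), g⁻¹ * D.t ^ k * g ∈ Γ → ext0 Γ φ (g⁻¹ * D.t ^ k * g) = 0

lemma coc_t_pow_eq_zero {φ : Additive Γ →+ ℂ} (hφ : D.IsPar φ) (m : G ⧸ Γ → ℂ) {n : ℕ}
    (hn : ∀ x : G ⧸ Γ, D.t ^ n • x = x) (x : G ⧸ Γ) : coc φ m (D.t ^ n) x = 0 := by
  have hx : (D.t ^ n)⁻¹ • x = x := by rw [inv_smul_eq_iff, hn]
  have hmem := rep_mem (Γ := Γ) (D.t ^ n) x
  unfold coc
  rw [hx] at hmem ⊢
  rw [hφ _ n hmem]
  ring

lemma sum_coc_t_eq_zero {φ : Additive Γ →+ ℂ} (hφ : D.IsPar φ) (m : G ⧸ Γ → ℂ) {n : ℕ}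
    (hn : ∀ x : G ⧸ Γ, D.t ^ n • x = x) (x : G ⧸ Γ) :
    ∑ i ∈ Finset.range n, coc φ m D.t ((D.t⁻¹) ^ i • x) = 0 := by
  rw [← GenData.coc_pow, D.coc_t_pow_eq_zero hφ m hn]

variable [Fintype D.I]

theorem ker_aux {φ : Additive Γ →+ ℂ} (hφ : D.IsPar φ) (m : G ⧸ Γ → ℂ) (lam : D.I → ℂ)
    (hA : ∀ x, coc φ m D.s x + ∑ O, lam O * D.aO O x = 0)
    (hB : ∀ x, coc φ m D.u x + ∑ O, lam O * D.bO O x = 0) :
    φ = 0 ∧ (∀ x, m x = m (((1 : G) : G ⧸ Γ))) ∧ lam = 0 := by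
  obtain ⟨n, hn0, hn⟩ := D.exists_pow_smul
  -- formula for `coc t`
  have ht : ∀ x, coc φ m D.t x = - ∑ O, lam O *
      ((Pi.single (D.y O) (1 : ℂ) : G ⧸ Γ → ℂ) x - (Pi.single D.y₀ (1 : ℂ) : G ⧸ Γ → ℂ) x) := by
    intro x
    rw [D.coc_t]
    have h1 := hA (D.s • x)
    have h2 := hB (D.s • x)
    have h3 : coc φ m D.u (D.s • x) - coc φ m D.s (D.s • x)
        = - ∑ O, lam O * (D.bO O (D.s • x) - D.aO O (D.s • x)) := by
      simp only [mul_sub, Finset.sum_sub_distrib]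
      linear_combination h2 - h1
    rw [h3]
    congr 1
    refine Finset.sum_congr rfl fun O _ => ?_
    rw [D.bO_sub_aO_apply]
  -- `lam = 0`
  have hlam : lam = 0 := by
    funext O₁
    have h1 := D.sum_coc_t_eq_zero hφ m hn (D.y O₁)
    have h2 : ∀ i ∈ Finset.range n, coc φ m D.t ((D.t⁻¹) ^ i • D.y O₁)
        = - (lam O₁ * (Pi.single (D.y O₁) (1 : ℂ) : G ⧸ Γ → ℂ) ((D.t⁻¹) ^ i • D.y O₁)) := by
      intro i _
      rw [ht]
      congr 1
      rw [Finset.sum_eq_single O₁]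
      · have : (Pi.single D.y₀ (1 : ℂ) : G ⧸ Γ → ℂ) ((D.t⁻¹) ^ i • D.y O₁) = 0 := by
          rw [Pi.single_apply, if_neg]
          intro h
          have h' := congrArg (fun z => (Quotient.mk'' z : D.Qt)) h
          simp only [D.mk_pow_smul, D.mk_y, D.mk_y₀] at h'
          exact O₁.2 h'
        rw [this, sub_zero]
      · intro O _ hO
        have e1 : (Pi.single (D.y O) (1 : ℂ) : G ⧸ Γ → ℂ) ((D.t⁻¹) ^ i • D.y O₁) = 0 := by
          rw [Pi.single_apply, if_neg]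
          intro h
          have h' := congrArg (fun z => (Quotient.mk'' z : D.Qt)) h
          simp only [D.mk_pow_smul, D.mk_y] at h'
          exact hO (Subtype.ext h'.symm)
        have e2 : (Pi.single D.y₀ (1 : ℂ) : G ⧸ Γ → ℂ) ((D.t⁻¹) ^ i • D.y O₁) = 0 := by
          rw [Pi.single_apply, if_neg]
          intro h
          have h' := congrArg (fun z => (Quotient.mk'' z : D.Qt)) h
          simp only [D.mk_pow_smul, D.mk_y, D.mk_y₀] at h'
          exact O₁.2 h'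
        rw [e1, e2, sub_zero, mul_zero]
      · intro h
        exact absurd (Finset.mem_univ _) h
    rw [Finset.sum_congr rfl h2, Finset.sum_neg_distrib, ← Finset.mul_sum, neg_eq_zero] at h1
    rcases mul_eq_zero.mp h1 with h | h
    · exact h
    · exfalso
      -- the sum of the indicator values is a positive natural number
      have h4 : ∑ i ∈ Finset.range n,
          (Pi.single (D.y O₁) (1 : ℂ) : G ⧸ Γ → ℂ) ((D.t⁻¹) ^ i • D.y O₁)
          = ((Finset.filter (fun i => (D.t⁻¹) ^ i • D.y O₁ = D.y O₁) (Finset.range n)).card : ℂ) := by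
        rw [Finset.card_filter]
        push_cast
        refine Finset.sum_congr rfl fun i _ => ?_
        rw [Pi.single_apply]
      rw [h4] at h
      have h5 : 0 < (Finset.filter (fun i => (D.t⁻¹) ^ i • D.y O₁ = D.y O₁)
          (Finset.range n)).card := by
        apply Finset.card_pos.mpr
        exact ⟨0, by simp [hn0]⟩
      have : ((Finset.filter (fun i => (D.t⁻¹) ^ i • D.y O₁ = D.y O₁)
          (Finset.range n)).card : ℂ) ≠ 0 := by exact_mod_cast h5.ne'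
      exact this h
  subst hlam
  simp only [Pi.zero_apply, zero_mul, Finset.sum_const_zero, add_zero] at hA hB
  have hs : D.s ∈ vanish φ m := hA
  have hu : D.u ∈ vanish φ m := hB
  have htop : vanish φ m = ⊤ := by
    apply top_le_iff.mp
    rw [← D.gen, Subgroup.closure_le]
    rintro z (rfl | rfl)
    · exact hs
    · exact hu
  have hall : ∀ g x, coc φ m g x = 0 := by
    intro g
    have : g ∈ vanish φ m := by rw [htop]; trivial
    exact this
  have hφ0 : φ = 0 := by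
    apply AddMonoidHom.ext
    intro γ
    have h1 := coc_base φ m (Additive.toMul γ).2
    rw [hall, ext0_of_mem φ (Additive.toMul γ).2] at h1
    exact h1.symm
  refine ⟨hφ0, ?_, rfl⟩
  subst hφ0
  intro x
  induction x using QuotientGroup.induction_on with
  | H g =>
    have h1 := hall g ((g : G) : G ⧸ Γ)
    unfold coc at h1
    rw [ext0_zero, zero_add, sub_eq_zero] at h1
    rw [← h1]
    congr 1
    show ((g⁻¹ * g : G) : G ⧸ Γ) = _
    rw [inv_mul_cancel]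

end GenData

end KernelThm

section Count2

variable {G : Type*} [Group G] {Γ : Subgroup G} [Finite (G ⧸ Γ)]

namespace GenData

variable (D : GenData Γ) [Fintype D.I]

/-- first component of the big map. -/
def big₁ : ((Additive Γ →+ ℂ) × (G ⧸ Γ → ℂ) × (D.I → ℂ)) →ₗ[ℂ] (G ⧸ Γ → ℂ) where
  toFun z := fun x => coc z.1 z.2.1 D.s x + ∑ O, z.2.2 O * D.aO O x
  map_add' z z' := by
    funext x
    simp only [Prod.fst_add, Prod.snd_add, coc_add, Pi.add_apply, add_mul, Finset.sum_add_distrib]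
    ring
  map_smul' c z := by
    funext x
    simp only [Prod.smul_fst, Prod.smul_snd, coc_smul, Pi.smul_apply, smul_eq_mul, RingHom.id_apply,
      mul_add, Finset.mul_sum, mul_assoc]

/-- second component of the big map. -/
def big₂ : ((Additive Γ →+ ℂ) × (G ⧸ Γ → ℂ) × (D.I → ℂ)) →ₗ[ℂ] (G ⧸ Γ → ℂ) where
  toFun z := fun x => coc z.1 z.2.1 D.u x + ∑ O, z.2.2 O * D.bO O x
  map_add' z z' := by
    funext x
    simp only [Prod.fst_add, Prod.snd_add, coc_add, Pi.add_apply, add_mul, Finset.sum_add_distrib]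
    ring
  map_smul' c z := by
    funext x
    simp only [Prod.smul_fst, Prod.smul_snd, coc_smul, Pi.smul_apply, smul_eq_mul, RingHom.id_apply,
      mul_add, Finset.mul_sum, mul_assoc]

lemma big₁_apply (z : (Additive Γ →+ ℂ) × (G ⧸ Γ → ℂ) × (D.I → ℂ)) (x : G ⧸ Γ) :
    D.big₁ z x = coc z.1 z.2.1 D.s x + ∑ O, z.2.2 O * D.aO O x := rfl

lemma big₂_apply (z : (Additive Γ →+ ℂ) × (G ⧸ Γ → ℂ) × (D.I → ℂ)) (x : G ⧸ Γ) :
    D.big₂ z x = coc z.1 z.2.1 D.u x + ∑ O, z.2.2 O * D.bO O x := rfl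

lemma big₁_mem (z : (Additive Γ →+ ℂ) × (G ⧸ Γ → ℂ) × (D.I → ℂ)) : D.big₁ z ∈ D.Vs := by
  have e : D.big₁ z = (fun x => coc z.1 z.2.1 D.s x) + ∑ O, z.2.2 O • D.aO O := by
    funext x
    rw [big₁_apply, Pi.add_apply, Finset.sum_apply]
    simp only [Pi.smul_apply, smul_eq_mul]
  rw [e]
  refine D.Vs.add_mem ?_ (D.Vs.sum_mem fun O _ => D.Vs.smul_mem _ (D.aO_mem O))
  rw [mem_Vs]
  exact fun x => D.coc_s z.1 z.2.1 x

lemma big₂_mem (z : (Additive Γ →+ ℂ) × (G ⧸ Γ → ℂ) × (D.I → ℂ)) : D.big₂ z ∈ D.Vu := by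
  have e : D.big₂ z = (fun x => coc z.1 z.2.1 D.u x) + ∑ O, z.2.2 O • D.bO O := by
    funext x
    rw [big₂_apply, Pi.add_apply, Finset.sum_apply]
    simp only [Pi.smul_apply, smul_eq_mul]
  rw [e]
  refine D.Vu.add_mem ?_ (D.Vu.sum_mem fun O _ => D.Vu.smul_mem _ (D.bO_mem O))
  rw [mem_Vu]
  exact fun x => D.coc_u z.1 z.2.1 x

/-- the big map into `Vs × Vu`. -/
def big : ((Additive Γ →+ ℂ) × (G ⧸ Γ → ℂ) × (D.I → ℂ)) →ₗ[ℂ] (D.Vs × D.Vu) :=
  (D.big₁.codRestrict D.Vs D.big₁_mem).prod (D.big₂.codRestrict D.Vu D.big₂_mem)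

lemma big_eq_zero_iff (z : (Additive Γ →+ ℂ) × (G ⧸ Γ → ℂ) × (D.I → ℂ)) :
    D.big z = 0 ↔ (∀ x, coc z.1 z.2.1 D.s x + ∑ O, z.2.2 O * D.aO O x = 0) ∧
      (∀ x, coc z.1 z.2.1 D.u x + ∑ O, z.2.2 O * D.bO O x = 0) := by
  unfold big
  rw [LinearMap.prod_apply]
  show ((D.big₁.codRestrict D.Vs D.big₁_mem) z, (D.big₂.codRestrict D.Vu D.big₂_mem) z) = 0 ↔ _
  rw [Prod.mk_eq_zero]
  constructor
  · rintro ⟨h1, h2⟩
    have h1' := congrArg Subtype.val h1
    have h2' := congrArg Subtype.val h2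
    simp only [LinearMap.codRestrict_apply, ZeroMemClass.coe_zero] at h1' h2'
    exact ⟨fun x => congrFun h1' x, fun x => congrFun h2' x⟩
  · rintro ⟨h1, h2⟩
    exact ⟨Subtype.ext (funext h1), Subtype.ext (funext h2)⟩

end GenData

end Count2

section MainThm

variable {G : Type*} [Group G] {Γ : Subgroup G} [Finite (G ⧸ Γ)]

namespace GenData

variable (D : GenData Γ)

/-- **Abstract bound.** A space `P` of characters of `Γ` killing all conjugates of powers of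
`t = s⁻¹ u` lying in `Γ` is finite-dimensional, and
`dim P + #(⟨s⟩-orbits) + #(⟨u⟩-orbits) + #(⟨t⟩-orbits) ≤ [G : Γ] + 2`. -/
theorem main (P : Submodule ℂ (Additive Γ →+ ℂ)) (hP : ∀ φ ∈ P, D.IsPar φ) :
    Module.Finite ℂ P ∧
      Module.finrank ℂ P
        + Nat.card (MulAction.orbitRel.Quotient (Subgroup.zpowers D.s) (G ⧸ Γ))
        + Nat.card (MulAction.orbitRel.Quotient (Subgroup.zpowers D.u) (G ⧸ Γ))
        + Nat.card (MulAction.orbitRel.Quotient (Subgroup.zpowers D.t) (G ⧸ Γ))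
        ≤ Nat.card (G ⧸ Γ) + 2 := by
  haveI : Fintype (G ⧸ Γ) := Fintype.ofFinite _
  haveI : Fintype D.Qt := Fintype.ofFinite _
  haveI : Fintype D.I := Fintype.ofFinite _
  let LP : (P × ((G ⧸ Γ → ℂ) × (D.I → ℂ))) →ₗ[ℂ] (D.Vs × D.Vu) :=
    D.big.comp (LinearMap.prodMap P.subtype LinearMap.id)
  have hker : ∀ z : P × ((G ⧸ Γ → ℂ) × (D.I → ℂ)), LP z = 0 →
      z.1 = 0 ∧ (∀ x, z.2.1 x = z.2.1 (((1 : G) : G ⧸ Γ))) ∧ z.2.2 = 0 := by
    intro z hz
    have h1 : D.big ((z.1 : Additive Γ →+ ℂ), z.2) = 0 := hz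
    rw [D.big_eq_zero_iff] at h1
    obtain ⟨h2, h3, h4⟩ := D.ker_aux (hP z.1 z.1.2) z.2.1 z.2.2 h1.1 h1.2
    exact ⟨Subtype.ext h2, h3, h4⟩
  -- finiteness
  have hfin : Module.Finite ℂ P := by
    let f : P →ₗ[ℂ] (D.Vs × D.Vu) := LP.comp (LinearMap.inl ℂ P ((G ⧸ Γ → ℂ) × (D.I → ℂ)))
    have hf : Function.Injective f := by
      rw [← LinearMap.ker_eq_bot, LinearMap.ker_eq_bot']
      intro φ hφ
      exact (hker (φ, 0) hφ).1
    exact Module.Finite.of_injective f hf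
  refine ⟨hfin, ?_⟩
  -- the count
  have h := LinearMap.finrank_range_add_finrank_ker LP
  have hrange : Module.finrank ℂ (LinearMap.range LP) ≤ Module.finrank ℂ (D.Vs × D.Vu) :=
    Submodule.finrank_le _
  have hkerdim : Module.finrank ℂ (LinearMap.ker LP) ≤ 1 := by
    let ι : ℂ →ₗ[ℂ] (P × ((G ⧸ Γ → ℂ) × (D.I → ℂ))) :=
      (LinearMap.inr ℂ P ((G ⧸ Γ → ℂ) × (D.I → ℂ))).comp
        ((LinearMap.inl ℂ (G ⧸ Γ → ℂ) (D.I → ℂ)).comp
          (LinearMap.pi fun _ : G ⧸ Γ => (LinearMap.id : ℂ →ₗ[ℂ] ℂ)))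
    have hle : LinearMap.ker LP ≤ LinearMap.range ι := by
      intro z hz
      obtain ⟨h1, h2, h3⟩ := hker z hz
      refine ⟨z.2.1 (((1 : G) : G ⧸ Γ)), ?_⟩
      apply Prod.ext
      · exact h1.symm
      · apply Prod.ext
        · funext x
          exact (h2 x).symm
        · exact h3.symm
    calc Module.finrank ℂ (LinearMap.ker LP) ≤ Module.finrank ℂ (LinearMap.range ι) :=
          Submodule.finrank_mono hle
      _ ≤ Module.finrank ℂ ℂ := LinearMap.finrank_range_le ι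
      _ = 1 := Module.finrank_self ℂ
  have hVs := finrank_ker_normOp (X := G ⧸ Γ) D.s 2 (by norm_num) D.s_pow_smul
  have hVu := finrank_ker_normOp (X := G ⧸ Γ) D.u 3 (by norm_num) D.u_pow_smul
  have hI : Fintype.card D.I + 1 = Nat.card D.Qt := by
    rw [Nat.card_eq_fintype_card, ← Fintype.card_option]
    exact Fintype.card_congr (Equiv.optionSubtypeNe D.O₀)
  have hdom : Module.finrank ℂ (P × ((G ⧸ Γ → ℂ) × (D.I → ℂ)))
      = Module.finrank ℂ P + (Nat.card (G ⧸ Γ) + Fintype.card D.I) := by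
    rw [Module.finrank_prod, Module.finrank_prod, Module.finrank_fintype_fun_eq_card,
      Module.finrank_fintype_fun_eq_card, Nat.card_eq_fintype_card]
  have hcod : Module.finrank ℂ (D.Vs × D.Vu)
      = Module.finrank ℂ D.Vs + Module.finrank ℂ D.Vu := Module.finrank_prod
  have hVs' : Module.finrank ℂ D.Vs
      + Nat.card (MulAction.orbitRel.Quotient (Subgroup.zpowers D.s) (G ⧸ Γ))
      = Nat.card (G ⧸ Γ) := hVs
  have hVu' : Module.finrank ℂ D.Vu
      + Nat.card (MulAction.orbitRel.Quotient (Subgroup.zpowers D.u) (G ⧸ Γ))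
      = Nat.card (G ⧸ Γ) := hVu
  have hI' : Fintype.card D.I + 1
      = Nat.card (MulAction.orbitRel.Quotient (Subgroup.zpowers D.t) (G ⧸ Γ)) := hI
  omega

end GenData

end MainThm

end Fermat.Agent.S21.ParAbstract
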