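/-
S21 (UP2), concrete part (helper1): the space of parabolic characters of `Γ₀(N)` is
finite-dimensional of dimension at most `2 g`, `g = genusFormula N`.
-/
import Mathlib
import Fermat.Prelude.Def_ModularCurve_PeriodMap
import Fermat.Prelude.Def_ModularCurve_GenusNumerics
import Fermat.Agent.S21.ParAbstract
import Fermat.Agent.X0.G1Elliptic
import Fermat.Agent.X0.G1Cusps
import Fermat.Agent.X0.G1Index

set_option autoImplicit false

open Matrix MatrixGroups ModularGroup CongruenceSubgroup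

noncomputable section

namespace Fermat.Agent.S21.ParBound

open Fermat.Agent.S21.ParAbstract ModularCurve.Period

lemma S_mul_S : (S * S : SL(2, ℤ)) = -1 := by
  ext i j
  fin_cases i <;> fin_cases j <;>
    simp [Matrix.SpecialLinearGroup.coe_mul, coe_S, Matrix.mul_apply, Fin.sum_univ_two]

lemma ST_cube : (S * T * (S * T) * (S * T) : SL(2, ℤ)) = -1 := by
  ext i j
  fin_cases i <;> fin_cases j <;>
    simp [Matrix.SpecialLinearGroup.coe_mul, coe_S, coe_T, Matrix.mul_apply, Fin.sum_univ_two]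

lemma closure_S_ST : Subgroup.closure ({S, S * T} : Set SL(2, ℤ)) = ⊤ := by
  rw [eq_top_iff, ← SpecialLinearGroup.SL2Z_generators, Subgroup.closure_le]
  rintro z (rfl | rfl)
  · exact Subgroup.subset_closure (Set.mem_insert _ _)
  · have h1 : (S : SL(2, ℤ)) ∈ Subgroup.closure ({S, S * T} : Set SL(2, ℤ)) :=
      Subgroup.subset_closure (Set.mem_insert _ _)
    have h2 : (S * T : SL(2, ℤ)) ∈ Subgroup.closure ({S, S * T} : Set SL(2, ℤ)) :=
      Subgroup.subset_closure (Set.mem_insert_of_mem _ rfl)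
    have h3 := Subgroup.mul_mem _ (Subgroup.inv_mem _ h1) h2
    rwa [inv_mul_cancel_left] at h3

/-- the generation data for `Γ₀(N) ≤ SL(2, ℤ)`. -/
def gammaData (N : ℕ) : GenData (Gamma0 N) where
  s := S
  u := S * T
  w := -1
  gen := closure_S_ST
  hs := S_mul_S
  hu := ST_cube
  w_central := fun g => by rw [neg_mul, one_mul, mul_neg, mul_one]
  w_mem := by
    rw [Gamma0_mem]
    simp
  w_sq := by simp

lemma gammaData_t (N : ℕ) : (gammaData N).t = T := by
  show S⁻¹ * (S * T) = T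
  rw [inv_mul_cancel_left]

lemma trace_conj_T_pow (g : SL(2, ℤ)) (k : ℕ) :
    ((g⁻¹ * T ^ k * g : SL(2, ℤ)) : Matrix (Fin 2) (Fin 2) ℤ).trace = 2 := by
  rw [Matrix.SpecialLinearGroup.coe_mul, Matrix.trace_mul_comm,
    ← Matrix.SpecialLinearGroup.coe_mul, mul_inv_cancel_left]
  have h := ModularGroup.coe_T_zpow (k : ℤ)
  rw [zpow_natCast] at h
  rw [h]
  simp [Matrix.trace_fin_two]

/-- parabolic characters (in the sense of the Prelude) are parabolic in the abstract sense. -/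
lemma isPar_of_mem (N : ℕ) (φ : Additive (Gamma0 N) →+ ℂ)
    (hφ : φ ∈ parabolicHoms ℂ (Gamma0 N) ℂ) : (gammaData N).IsPar φ := by
  intro g k hmem
  rw [gammaData_t] at hmem ⊢
  rw [ext0_of_mem φ hmem]
  refine hφ ⟨g⁻¹ * T ^ k * g, hmem⟩ ?_
  show ((g⁻¹ * T ^ k * g : SL(2, ℤ)) : Matrix (Fin 2) (Fin 2) ℤ).trace ^ 2 = 4
  rw [trace_conj_T_pow]
  norm_num

/-- the raw bound from the abstract theorem. -/
theorem main_bound (N : ℕ) [NeZero N] :
    Module.Finite ℂ (parabolicHoms ℂ (Gamma0 N) ℂ) ∧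
      Module.finrank ℂ (parabolicHoms ℂ (Gamma0 N) ℂ)
        + Nat.card (MulAction.orbitRel.Quotient (Subgroup.zpowers S) (SL(2, ℤ) ⧸ Gamma0 N))
        + Nat.card (MulAction.orbitRel.Quotient (Subgroup.zpowers (S * T)) (SL(2, ℤ) ⧸ Gamma0 N))
        + Nat.card (MulAction.orbitRel.Quotient (Subgroup.zpowers T) (SL(2, ℤ) ⧸ Gamma0 N))
        ≤ Nat.card (SL(2, ℤ) ⧸ Gamma0 N) + 2 := by
  have h := (gammaData N).main (parabolicHoms ℂ (Gamma0 N) ℂ) (isPar_of_mem N)
  rw [gammaData_t] at h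
  exact h

instance finite_parabolicHoms (N : ℕ) [NeZero N] :
    Module.Finite ℂ (parabolicHoms ℂ (Gamma0 N) ℂ) :=
  (main_bound N).1

/-- **UP2**: `dim_ℂ parabolicHoms(Γ₀(N), ℂ) ≤ 2 g`. -/
theorem finrank_parabolicHoms_le (N : ℕ) [NeZero N] (g : ℕ)
    (hg : (g : ℚ) = ModularCurve.genusFormula N) :
    Module.finrank ℂ (parabolicHoms ℂ (Gamma0 N) ℂ) ≤ 2 * g := by
  have hmain := (main_bound N).2
  have hS := Fermat.Agent.X0.G1Elliptic.g1_card_orbits_S N
  have hST := Fermat.Agent.X0.G1Elliptic.g1_card_orbits_ST N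
  have hT := Fermat.Agent.X0.G1Cusps.g1_orbits_T N
  have hX := Fermat.Agent.X0.G1Index.g1_card N
  rw [hT] at hmain
  rw [hX] at hmain hS hST
  have hgen : 12 * g + 3 * ModularCurve.nuTwo N + 4 * ModularCurve.nuThree N
      + 6 * ModularCurve.cuspCount N = 12 + ModularCurve.dedekindPsi N := by
    have h1 : (12 * (g : ℚ) + 3 * (ModularCurve.nuTwo N : ℚ) + 4 * (ModularCurve.nuThree N : ℚ)
        + 6 * (ModularCurve.cuspCount N : ℚ)) = 12 + (ModularCurve.dedekindPsi N : ℚ) := by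
      rw [hg]
      unfold ModularCurve.genusFormula
      ring
    exact_mod_cast h1
  omega

end Fermat.Agent.S21.ParBound
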