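/-
C-S21 (UP1b), helper11: periods of cusp forms are parabolic homomorphisms; the conjugate cusp form
`conjForm f = f ∣[2] J` and the symmetry of the period map under `γ ↦ JγJ`.
-/
import Mathlib
import Fermat.Prelude.Def_ModularCurve_PeriodHomPair

set_option autoImplicit false

namespace Fermat.Agent.S21.Parabolic

open UpperHalfPlane CongruenceSubgroup Filter Topology ModularCurve ModularCurve.Period
open scoped MatrixGroups

/-! ### Parabolic elements of `SL(2, ℤ)` are conjugate to upper triangular matrices -/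

theorem exists_conj_c_eq_zero (γ : SL(2, ℤ))
    (h : (γ : Matrix (Fin 2) (Fin 2) ℤ).trace ^ 2 = 4) :
    ∃ δ : SL(2, ℤ), (δ⁻¹ * γ * δ) 1 0 = 0 := by
  have hdet : γ 0 0 * γ 1 1 - γ 0 1 * γ 1 0 = 1 := by
    have := γ.det_coe
    rwa [Matrix.det_fin_two] at this
  rw [Matrix.trace_fin_two] at h
  by_cases hc : γ 1 0 = 0
  · refine ⟨1, ?_⟩
    simpa using hc
  -- `ε = ±1` with `a + d = 2 ε`
  obtain ⟨ε, hε, hεtr⟩ : ∃ ε : ℤ, ε ^ 2 = 1 ∧ γ 0 0 + γ 1 1 = 2 * ε := by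
    have h' : (γ 0 0 + γ 1 1 - 2) * (γ 0 0 + γ 1 1 + 2) = 0 := by ring_nf; ring_nf at h; omega
    rcases mul_eq_zero.mp h' with h1 | h1
    · exact ⟨1, by norm_num, by omega⟩
    · exact ⟨-1, by norm_num, by omega⟩
  have hg : 0 < Int.gcd (ε - γ 1 1) (γ 1 0) := Int.gcd_pos_of_ne_zero_right _ hc
  obtain ⟨p, q, hpq, hp, hq⟩ := Int.exists_gcd_one hg
  set g : ℤ := (Int.gcd (ε - γ 1 1) (γ 1 0) : ℤ) with hgdef
  have hg0 : g ≠ 0 := by
    have : (0 : ℤ) < g := by rw [hgdef]; exact_mod_cast hg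
    exact this.ne'
  obtain ⟨u, v, huv⟩ : ∃ u v : ℤ, u * p + v * q = 1 := by
    have : IsCoprime p q := Int.isCoprime_iff_gcd_eq_one.mpr hpq
    exact this
  obtain ⟨δ, h00, h01, h10, h11⟩ : ∃ δ : SL(2, ℤ), δ 0 0 = p ∧ δ 0 1 = -v ∧ δ 1 0 = q ∧
      δ 1 1 = u :=
    ⟨⟨!![p, -v; q, u], by rw [Matrix.det_fin_two_of]; linarith⟩, rfl, rfl, rfl, rfl⟩
  refine ⟨δ, ?_⟩
  have i10 : (δ⁻¹ : SL(2, ℤ)) 1 0 = -q := by
    rw [Matrix.SpecialLinearGroup.SL2_inv_expl]; simp [h10]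
  have i11 : (δ⁻¹ : SL(2, ℤ)) 1 1 = p := by
    rw [Matrix.SpecialLinearGroup.SL2_inv_expl]; simp [h00]
  simp only [Matrix.SpecialLinearGroup.coe_mul, Matrix.mul_apply, Fin.sum_univ_two,
    h00, h10, i10, i11]
  -- the entry is `c p² + (d - a) p q - b q²`
  have key : g ^ 2 * (γ 1 0 * p ^ 2 + (γ 1 1 - γ 0 0) * p * q - γ 0 1 * q ^ 2) = 0 := by
    have e1 : g * p = ε - γ 1 1 := by rw [hp]; ring
    have e2 : g * q = γ 1 0 := by rw [hq]; ring
    have : g ^ 2 * (γ 1 0 * p ^ 2 + (γ 1 1 - γ 0 0) * p * q - γ 0 1 * q ^ 2)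
        = γ 1 0 * (g * p) ^ 2 + (γ 1 1 - γ 0 0) * (g * p) * (g * q) - γ 0 1 * (g * q) ^ 2 := by
      ring
    rw [this, e1, e2]
    have ha : γ 0 0 = 2 * ε - γ 1 1 := by linarith
    have hbc : γ 0 1 * γ 1 0 = γ 0 0 * γ 1 1 - 1 := by linarith
    have : γ 1 0 * (ε - γ 1 1) ^ 2 + (γ 1 1 - γ 0 0) * (ε - γ 1 1) * γ 1 0 - γ 0 1 * γ 1 0 ^ 2
        = γ 1 0 * ((ε - γ 1 1) ^ 2 + (γ 1 1 - γ 0 0) * (ε - γ 1 1) - γ 0 1 * γ 1 0) := by ring
    rw [this, hbc, ha]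
    have : (ε - γ 1 1) ^ 2 + (γ 1 1 - (2 * ε - γ 1 1)) * (ε - γ 1 1) - ((2 * ε - γ 1 1) * γ 1 1 - 1)
        = 1 - ε ^ 2 := by ring
    rw [this, hε]; ring
  have key' := (mul_eq_zero.mp key).resolve_left (pow_ne_zero 2 hg0)
  linear_combination key'

/-! ### Periods of parabolic elements vanish -/

variable {N : ℕ}

theorem tendsto_SL_smul_atImInfty {g : SL(2, ℤ)} (hg : g 1 0 = 0) :
    Tendsto (fun w : ℍ => g • w) atImInfty atImInfty := by
  have h : ((g : GL (Fin 2) ℝ)) 1 0 = 0 := by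
    simp [hg]
  exact tendsto_smul_atImInfty h

theorem period_eq_zero_of_trace {f : CuspForm (Gamma0 N) 2} {F : ℍ → ℂ}
    (hF : HasEquivariantPrimitive N f F) (γ : Gamma0 N)
    (h : ((γ : SL(2, ℤ)) : Matrix (Fin 2) (Fin 2) ℤ).trace ^ 2 = 4) :
    hF.2.2.1.period γ = 0 := by
  obtain ⟨δ, hδ⟩ := exists_conj_c_eq_zero (γ : SL(2, ℤ)) h
  obtain ⟨L, hL⟩ := hF.2.2.2 δ
  have hg := tendsto_SL_smul_atImInfty hδ
  have h1 : Tendsto (fun w : ℍ => F (δ • ((δ⁻¹ * (γ : SL(2, ℤ)) * δ) • w))) atImInfty (𝓝 L) :=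
    hL.comp hg
  have h2 : ∀ w : ℍ, F (δ • ((δ⁻¹ * (γ : SL(2, ℤ)) * δ) • w)) - F (δ • w) = hF.2.2.1.period γ := by
    intro w
    have := hF.2.2.1.sub_eq_period γ (δ • w)
    rw [← this]
    congr 2
    rw [← mul_smul, ← mul_smul]
    congr 1
    group
  have h3 : Tendsto (fun w : ℍ => F (δ • ((δ⁻¹ * (γ : SL(2, ℤ)) * δ) • w)) - F (δ • w))
      atImInfty (𝓝 (L - L)) := h1.sub hL
  simp only [h2, sub_self] at h3
  exact tendsto_nhds_unique tendsto_const_nhds h3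

theorem periodMap_eq_zero_of_not_exists {f : CuspForm (Gamma0 N) 2}
    (h : ¬ ∃ F : ℍ → ℂ, HasEquivariantPrimitive N f F) : periodMap N f = 0 := by
  unfold periodMap
  rw [dif_neg h]

/-- The period homomorphism of a cusp form kills all elements of trace `±2`. -/
theorem periodMap_mem_parabolicHoms (N : ℕ) (f : CuspForm (Gamma0 N) 2) :
    periodMap N f ∈ parabolicHoms ℂ (Gamma0 N) ℂ := by
  by_cases h : ∃ F : ℍ → ℂ, HasEquivariantPrimitive N f F
  · obtain ⟨F, hF⟩ := h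
    obtain ⟨F₀, h₀, heq⟩ := periodMap_def N f hF
    rw [heq, mem_parabolicHoms_iff]
    intro γ hγ
    exact period_eq_zero_of_trace h₀ γ hγ
  · rw [periodMap_eq_zero_of_not_exists h]
    exact Submodule.zero_mem _

/-- The image of the period pairing consists of parabolic homomorphisms. -/
theorem range_periodHomPair_le (N : ℕ) :
    LinearMap.range (periodHomPair N) ≤ parabolicHoms ℂ (Gamma0 N) ℂ := by
  by_cases h : ExistsPeriodMapLinear N
  · obtain ⟨pml, hpml, heq⟩ := periodHomPair_def N h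
    rw [heq]
    rintro ψ ⟨⟨f, g⟩, rfl⟩
    have hf : pml f ∈ parabolicHoms ℂ (Gamma0 N) ℂ := hpml f ▸ periodMap_mem_parabolicHoms N f
    have hg : pml g ∈ parabolicHoms ℂ (Gamma0 N) ℂ := hpml g ▸ periodMap_mem_parabolicHoms N g
    simp only [LinearMap.coprod_apply, LinearMap.coe_comp, Function.comp_apply,
      LinearMap.add_apply, LinearMap.sub_apply, LinearMap.id_coe, id_eq]
    exact Submodule.add_mem _
      (Submodule.add_mem _ hf (charInvolution_mem_parabolicHoms N ℂ ℂ hf))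
      (Submodule.sub_mem _ hg (charInvolution_mem_parabolicHoms N ℂ ℂ hg))
  · have : periodHomPair N = 0 := by
      unfold periodHomPair
      rw [dif_neg h]
    rw [this]
    rintro ψ ⟨x, rfl⟩
    exact Submodule.zero_mem _

end Fermat.Agent.S21.Parabolic
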