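/-
C-S21 (UP-1), helper7: a maximum principle on `Γ₀(N) \ ℍ ∪ cusps`.
If `G` is holomorphic on `ℍ`, `Re G` is `Γ₀(N)`-invariant, and `G` has a limit and is periodic at
every cusp, then `exp ∘ G` is constant (hence `G' = 0`).
-/
import Mathlib

set_option autoImplicit false

open UpperHalfPlane Complex Filter Topology Function
open scoped MatrixGroups Manifold Modular

namespace Fermat.Agent.S21.MaxPrinciple7

/-- Finitely many right coset representatives of `Γ₀(N)` in `SL(2, ℤ)`. -/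
theorem exists_reps (N : ℕ) [NeZero N] : ∃ R : Finset SL(2, ℤ), ∀ g : SL(2, ℤ),
    ∃ δ ∈ R, ∃ γ ∈ CongruenceSubgroup.Gamma0 N, g = γ * δ := by
  classical
  have : Finite (SL(2, ℤ) ⧸ CongruenceSubgroup.Gamma0 N) :=
    Subgroup.finite_quotient_of_finiteIndex
  let _ : Fintype (SL(2, ℤ) ⧸ CongruenceSubgroup.Gamma0 N) := Fintype.ofFinite _
  refine ⟨Finset.univ.image
    (fun x : SL(2, ℤ) ⧸ CongruenceSubgroup.Gamma0 N => (Quotient.out x)⁻¹), fun g => ?_⟩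
  obtain ⟨h, hh⟩ := QuotientGroup.mk_out_eq_mul (CongruenceSubgroup.Gamma0 N) g⁻¹
  refine ⟨(Quotient.out (QuotientGroup.mk g⁻¹ : SL(2, ℤ) ⧸ CongruenceSubgroup.Gamma0 N))⁻¹,
    Finset.mem_image.mpr ⟨_, Finset.mem_univ _, rfl⟩, (h : SL(2, ℤ)), h.2, ?_⟩
  rw [hh]
  group

theorem continuous_SL_smul (δ : SL(2, ℤ)) : Continuous (fun w : ℍ => δ • w) :=
  continuous_const_smul (Matrix.SpecialLinearGroup.mapGL ℝ δ)

/-- Dichotomy for one coset: on the standard fundamental domain, `v (δ • ·)` is bounded by a value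
of `v` or by the limit at `i∞`. -/
theorem exists_bound_on_fd {v : ℍ → ℝ} (hv : Continuous v) (δ : SL(2, ℤ)) {ℓ : ℝ}
    (hℓ : Tendsto (fun w : ℍ => v (δ • w)) atImInfty (𝓝 ℓ)) :
    (∃ z : ℍ, ∀ w ∈ 𝒟, v (δ • w) ≤ v z) ∨ (∀ w ∈ 𝒟, v (δ • w) ≤ ℓ) := by
  by_cases h : ∀ w ∈ 𝒟, v (δ • w) ≤ ℓ
  · exact Or.inr h
  · left
    push Not at h
    obtain ⟨w0, hw0, hlt⟩ := h
    -- beyond height `A`, the values are `< v (δ • w0)`
    have hev : ∀ᶠ w in atImInfty, v (δ • w) < v (δ • w0) := hℓ.eventually (gt_mem_nhds hlt)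
    obtain ⟨A, hA⟩ := (atImInfty_mem _).mp hev
    set K := ModularGroup.truncatedFundamentalDomain (max A w0.im) with hK
    have hKc : IsCompact K := ModularGroup.isCompact_truncatedFundamentalDomain _
    have hw0K : w0 ∈ K := ⟨hw0, le_max_right _ _⟩
    have hcont : ContinuousOn (fun w : ℍ => v (δ • w)) K :=
      (hv.comp (continuous_SL_smul δ)).continuousOn
    obtain ⟨wm, hwmK, hmax⟩ := hKc.exists_isMaxOn ⟨w0, hw0K⟩ hcont
    refine ⟨δ • wm, fun w hw => ?_⟩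
    by_cases hwA : w.im ≤ max A w0.im
    · exact hmax ⟨hw, hwA⟩
    · have hA' : A ≤ w.im := le_trans (le_max_left _ _) (not_le.mp hwA).le
      have h1 : v (δ • w) < v (δ • w0) := hA w hA'
      exact h1.le.trans (hmax hw0K)

/-- Global dichotomy: a continuous `Γ₀(N)`-invariant function on `ℍ` with limits at all cusps
attains its supremum, or its supremum is the limit at some cusp. -/
theorem exists_max_or_cusp (N : ℕ) [NeZero N] {v : ℍ → ℝ} (hv : Continuous v)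
    (hinv : ∀ γ ∈ CongruenceSubgroup.Gamma0 N, ∀ z : ℍ, v (γ • z) = v z)
    (hlim : ∀ δ : SL(2, ℤ), ∃ ℓ : ℝ, Tendsto (fun w : ℍ => v (δ • w)) atImInfty (𝓝 ℓ)) :
    (∃ z0 : ℍ, ∀ z : ℍ, v z ≤ v z0) ∨
      (∃ (δ : SL(2, ℤ)) (ℓ : ℝ), Tendsto (fun w : ℍ => v (δ • w)) atImInfty (𝓝 ℓ) ∧
        ∀ z : ℍ, v z ≤ ℓ) := by
  choose ℓ hℓ using hlim
  obtain ⟨R, hR⟩ := exists_reps N
  have hP : ∀ δ : SL(2, ℤ), ∃ b : ℝ, (∀ w ∈ 𝒟, v (δ • w) ≤ b) ∧ ((∃ z, b = v z) ∨ b = ℓ δ) := by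
    intro δ
    rcases exists_bound_on_fd hv δ (hℓ δ) with ⟨z, hz⟩ | h
    · exact ⟨v z, hz, Or.inl ⟨z, rfl⟩⟩
    · exact ⟨ℓ δ, h, Or.inr rfl⟩
  choose b hb1 hb2 using hP
  have hRne : R.Nonempty := by
    obtain ⟨δ, hδ, -⟩ := hR 1
    exact ⟨δ, hδ⟩
  obtain ⟨δs, hδs, hmax⟩ := Finset.exists_max_image R b hRne
  have hall : ∀ z : ℍ, v z ≤ b δs := by
    intro z
    obtain ⟨g, hg⟩ := ModularGroup.exists_smul_mem_fd z
    obtain ⟨δ, hδ, γ, hγ, hgγ⟩ := hR g⁻¹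
    have hz : z = γ • (δ • (g • z)) := by
      rw [← mul_smul, ← mul_smul, ← hgγ, inv_mul_cancel, one_smul]
    calc v z = v (γ • (δ • (g • z))) := by rw [← hz]
      _ = v (δ • (g • z)) := hinv γ hγ _
      _ ≤ b δ := hb1 δ _ hg
      _ ≤ b δs := hmax δ hδ
  rcases hb2 δs with ⟨z0, hz0⟩ | h
  · left
    exact ⟨z0, fun z => hz0 ▸ hall z⟩
  · right
    exact ⟨δs, ℓ δs, hℓ δs, fun z => h ▸ hall z⟩

theorem mdiff_comp_SL {E : ℍ → ℂ} (hE : MDiff E) (δ : SL(2, ℤ)) :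
    MDiff (fun w : ℍ => E (δ • w)) := by
  have h : MDifferentiable 𝓘(ℂ) 𝓘(ℂ) (fun τ : ℍ => ((δ : GL (Fin 2) ℝ) • τ)) :=
    UpperHalfPlane.mdifferentiable_smul (g := (δ : GL (Fin 2) ℝ)) (by simp)
  exact MDifferentiable.comp (g := E) hE h

/-- Step 2a: interior maximum. -/
theorem eq_const_of_norm_le {E : ℍ → ℂ} (hE : MDiff E) (z0 : ℍ) (h : ∀ z, ‖E z‖ ≤ ‖E z0‖) :
    ∀ z, E z = E z0 := by
  have hd : DifferentiableOn ℂ (E ∘ ofComplex) upperHalfPlaneSet :=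
    UpperHalfPlane.mdifferentiable_iff.mp hE
  have hmax : IsMaxOn (norm ∘ (E ∘ ofComplex)) upperHalfPlaneSet (z0 : ℂ) := by
    intro w _
    simp only [Function.comp_apply, ofComplex_apply]
    exact h _
  have := Complex.eqOn_of_isPreconnected_of_isMaxOn_norm
    (convex_halfSpace_im_gt 0).isPreconnected isOpen_upperHalfPlaneSet hd z0.im_pos hmax
  intro z
  have hz := this z.im_pos
  simpa [ofComplex_apply] using hz

/-- Step 2b: the supremum is the limit at a cusp. -/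
theorem eq_const_of_norm_le_cusp {E : ℍ → ℂ} (hE : MDiff E) (δ : SL(2, ℤ)) {M : ℕ} (hM : 0 < M)
    (hper : ∀ w : ℍ, E (δ • ((M : ℝ) +ᵥ w)) = E (δ • w)) {L : ℂ}
    (hL : Tendsto (fun w : ℍ => E (δ • w)) atImInfty (𝓝 L)) (h : ∀ z, ‖E z‖ ≤ ‖L‖) :
    ∀ z, E z = L := by
  have hM' : (0 : ℝ) < (M : ℝ) := by exact_mod_cast hM
  set Eδ : ℍ → ℂ := fun w => E (δ • w) with hEδ
  have hEδd : MDiff Eδ := mdiff_comp_SL hE δ
  set fC : ℂ → ℂ := Eδ ∘ ofComplex with hfC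
  have hfd : DifferentiableOn ℂ fC upperHalfPlaneSet := UpperHalfPlane.mdifferentiable_iff.mp hEδd
  have hfda : ∀ w : ℂ, 0 < w.im → DifferentiableAt ℂ fC w := fun w hw =>
    (hfd w hw).differentiableAt (isOpen_upperHalfPlaneSet.mem_nhds hw)
  -- periodicity on all of `ℂ`
  have hfper : Periodic fC (M : ℝ) := by
    intro w
    simp only [hfC, Function.comp_apply]
    by_cases hw : 0 < w.im
    · have hw' : 0 < (w + ((M : ℝ) : ℂ)).im := by simpa using hw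
      have e : ofComplex (w + ((M : ℝ) : ℂ)) = (M : ℝ) +ᵥ ofComplex w := by
        apply UpperHalfPlane.ext
        rw [ofComplex_apply_of_im_pos hw', coe_vadd, ofComplex_apply_of_im_pos hw]
        simp [add_comm]
      rw [e]
      exact hper _
    · have hw0 : w.im ≤ 0 := not_lt.mp hw
      have hw' : (w + ((M : ℝ) : ℂ)).im ≤ 0 := by simpa using hw0
      rw [ofComplex_apply_of_im_nonpos hw0, ofComplex_apply_of_im_nonpos hw']
  have hhol : ∀ᶠ w in comap Complex.im atTop, DifferentiableAt ℂ fC w := by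
    have : ∀ᶠ w in comap Complex.im atTop, (0 : ℝ) < w.im :=
      (tendsto_comap (f := Complex.im) (x := atTop)).eventually (eventually_gt_atTop 0)
    exact this.mono hfda
  have htend : Tendsto fC (comap Complex.im atTop) (𝓝 L) := hL.comp tendsto_comap_im_ofComplex
  have hbd : BoundedAtFilter (comap Complex.im atTop) fC := htend.isBigO_one ℝ
  set φ := Periodic.cuspFunction (M : ℝ) fC with hφ
  have : (comap Complex.im atTop).NeBot :=
    Filter.NeBot.comap_of_surj inferInstance (fun y => ⟨⟨0, y⟩, rfl⟩)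
  have hφ0 : φ 0 = L :=
    tendsto_nhds_unique (Periodic.tendsto_at_I_inf hM' hfper hhol hbd) htend
  have hφval : ∀ w : ℍ, φ (Periodic.qParam (M : ℝ) (w : ℂ)) = E (δ • w) := by
    intro w
    rw [hφ, Periodic.eq_cuspFunction hM'.ne' hfper]
    simp [hfC, hEδ, ofComplex_apply]
  have hφd : DifferentiableOn ℂ φ (Metric.ball 0 1) := by
    intro q hq
    apply DifferentiableAt.differentiableWithinAt
    by_cases hq0 : q = 0
    · rw [hq0]
      exact Periodic.differentiableAt_cuspFunction_zero hM' hfper hhol hbd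
    · have hqn : ‖q‖ < 1 := by simpa using hq
      have him := Periodic.im_invQParam_pos_of_norm_lt_one hM' hqn hq0
      have := Periodic.differentiableAt_cuspFunction hM'.ne' hfper (hfda _ him)
      rwa [Periodic.qParam_right_inv hM'.ne' hq0] at this
  have hmax : IsMaxOn (norm ∘ φ) (Metric.ball 0 1) 0 := by
    intro q hq
    simp only [Function.comp_apply, Set.mem_ofPred_eq]
    by_cases hq0 : q = 0
    · rw [hq0]
    · have hqn : ‖q‖ < 1 := by simpa using hq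
      have him := Periodic.im_invQParam_pos_of_norm_lt_one hM' hqn hq0
      have e := hφval ⟨_, him⟩
      rw [UpperHalfPlane.coe_mk, Periodic.qParam_right_inv hM'.ne' hq0] at e
      rw [e, hφ0]
      exact h _
  have hconst := Complex.eqOn_of_isPreconnected_of_isMaxOn_norm
    (convex_ball (0 : ℂ) 1).isPreconnected Metric.isOpen_ball hφd (Metric.mem_ball_self one_pos) hmax
  intro z
  have hq : Periodic.qParam (M : ℝ) ((δ⁻¹ • z : ℍ) : ℂ) ∈ Metric.ball (0 : ℂ) 1 := by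
    simpa using Periodic.norm_qParam_lt_one hM' (δ⁻¹ • z).im_pos
  have := hconst hq
  rw [hφval, smul_inv_smul] at this
  simpa [hφ0] using this

/-- **Maximum principle**: if `G` is holomorphic on `ℍ` with `Γ₀(N)`-invariant real part, and has a
limit and is periodic at every cusp, then `exp ∘ G` is constant. -/
theorem exp_const_of_re_invariant (N : ℕ) [NeZero N] {G : ℍ → ℂ} (hG : MDiff G)
    (hinv : ∀ γ ∈ CongruenceSubgroup.Gamma0 N, ∀ z : ℍ, (G (γ • z)).re = (G z).re)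
    (hlim : ∀ δ : SL(2, ℤ), ∃ L : ℂ, Tendsto (fun w : ℍ => G (δ • w)) atImInfty (𝓝 L))
    (hper : ∀ δ : SL(2, ℤ), ∃ M : ℕ, 0 < M ∧ ∀ w : ℍ, G (δ • ((M : ℝ) +ᵥ w)) = G (δ • w)) :
    ∃ c : ℂ, ∀ z : ℍ, Complex.exp (G z) = c := by
  set E : ℍ → ℂ := fun z => Complex.exp (G z) with hE
  have hEd : MDiff E := by
    rw [UpperHalfPlane.mdifferentiable_iff]
    exact (UpperHalfPlane.mdifferentiable_iff.mp hG).cexp
  have hvc : Continuous (fun z => ‖E z‖) := hEd.continuous.norm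
  have hvinv : ∀ γ ∈ CongruenceSubgroup.Gamma0 N, ∀ z : ℍ, ‖E (γ • z)‖ = ‖E z‖ := by
    intro γ hγ z
    simp only [hE, Complex.norm_exp, hinv γ hγ z]
  have hElim : ∀ δ : SL(2, ℤ), ∃ L : ℂ, Tendsto (fun w : ℍ => E (δ • w)) atImInfty (𝓝 L) := by
    intro δ
    obtain ⟨L, hL⟩ := hlim δ
    exact ⟨Complex.exp L, (Complex.continuous_exp.tendsto L).comp hL⟩
  have hvlim : ∀ δ : SL(2, ℤ), ∃ ℓ : ℝ,
      Tendsto (fun w : ℍ => ‖E (δ • w)‖) atImInfty (𝓝 ℓ) := by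
    intro δ
    obtain ⟨L, hL⟩ := hElim δ
    exact ⟨‖L‖, hL.norm⟩
  rcases exists_max_or_cusp N hvc hvinv hvlim with ⟨z0, hz0⟩ | ⟨δ, ℓ, hℓ, hle⟩
  · exact ⟨E z0, eq_const_of_norm_le hEd z0 hz0⟩
  · obtain ⟨L, hL⟩ := hElim δ
    have hℓL : ℓ = ‖L‖ := tendsto_nhds_unique hℓ hL.norm
    obtain ⟨M, hM, hMper⟩ := hper δ
    refine ⟨L, eq_const_of_norm_le_cusp hEd δ hM (fun w => ?_) hL (fun z => hℓL ▸ hle z)⟩
    simp only [hE, hMper w]

/-- Consequence: the derivative of such a `G` vanishes. -/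
theorem eq_zero_of_hasDerivAt_of_re_invariant (N : ℕ) [NeZero N] {G g : ℍ → ℂ}
    (hGd : ∀ z : ℍ, HasDerivAt (G ∘ ofComplex) (g z) (z : ℂ))
    (hinv : ∀ γ ∈ CongruenceSubgroup.Gamma0 N, ∀ z : ℍ, (G (γ • z)).re = (G z).re)
    (hlim : ∀ δ : SL(2, ℤ), ∃ L : ℂ, Tendsto (fun w : ℍ => G (δ • w)) atImInfty (𝓝 L))
    (hper : ∀ δ : SL(2, ℤ), ∃ M : ℕ, 0 < M ∧ ∀ w : ℍ, G (δ • ((M : ℝ) +ᵥ w)) = G (δ • w))
    (z : ℍ) : g z = 0 := by
  have hG : MDiff G := by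
    rw [UpperHalfPlane.mdifferentiable_iff]
    intro w hw
    have := hGd ⟨w, hw⟩
    exact this.differentiableAt.differentiableWithinAt
  obtain ⟨c, hc⟩ := exp_const_of_re_invariant N hG hinv hlim hper
  have h1 : HasDerivAt (fun w => Complex.exp ((G ∘ ofComplex) w))
      (Complex.exp ((G ∘ ofComplex) (z : ℂ)) * g z) (z : ℂ) := (hGd z).cexp
  have h2 : (fun w => Complex.exp ((G ∘ ofComplex) w)) =ᶠ[𝓝 (z : ℂ)] fun _ => c := by
    filter_upwards [isOpen_upperHalfPlaneSet.mem_nhds z.im_pos] with w _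
    exact hc _
  have h3 : HasDerivAt (fun _ : ℂ => c) (Complex.exp ((G ∘ ofComplex) (z : ℂ)) * g z) (z : ℂ) :=
    h1.congr_of_eventuallyEq h2.symm
  have h4 := h3.unique (hasDerivAt_const (z : ℂ) c)
  exact (mul_eq_zero.mp h4).resolve_left (Complex.exp_ne_zero _)

/-! ### Generic form: finite index subgroups, boundedness instead of limits -/

/-- Finitely many right coset representatives of a finite index subgroup of `SL(2, ℤ)`. -/
theorem exists_reps_of_finiteIndex (Γ : Subgroup SL(2, ℤ)) [Γ.FiniteIndex] :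
    ∃ R : Finset SL(2, ℤ), ∀ g : SL(2, ℤ), ∃ δ ∈ R, ∃ γ ∈ Γ, g = γ * δ := by
  classical
  have : Finite (SL(2, ℤ) ⧸ Γ) := Subgroup.finite_quotient_of_finiteIndex
  let _ : Fintype (SL(2, ℤ) ⧸ Γ) := Fintype.ofFinite _
  refine ⟨Finset.univ.image (fun x : SL(2, ℤ) ⧸ Γ => (Quotient.out x)⁻¹), fun g => ?_⟩
  obtain ⟨h, hh⟩ := QuotientGroup.mk_out_eq_mul Γ g⁻¹
  refine ⟨(Quotient.out (QuotientGroup.mk g⁻¹ : SL(2, ℤ) ⧸ Γ))⁻¹,
    Finset.mem_image.mpr ⟨_, Finset.mem_univ _, rfl⟩, (h : SL(2, ℤ)), h.2, ?_⟩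
  rw [hh]
  group

/-- Global dichotomy for a finite index subgroup. -/
theorem exists_max_or_cusp_of_finiteIndex (Γ : Subgroup SL(2, ℤ)) [Γ.FiniteIndex] {v : ℍ → ℝ}
    (hv : Continuous v) (hinv : ∀ γ ∈ Γ, ∀ z : ℍ, v (γ • z) = v z)
    (hlim : ∀ δ : SL(2, ℤ), ∃ ℓ : ℝ, Tendsto (fun w : ℍ => v (δ • w)) atImInfty (𝓝 ℓ)) :
    (∃ z0 : ℍ, ∀ z : ℍ, v z ≤ v z0) ∨
      (∃ (δ : SL(2, ℤ)) (ℓ : ℝ), Tendsto (fun w : ℍ => v (δ • w)) atImInfty (𝓝 ℓ) ∧
        ∀ z : ℍ, v z ≤ ℓ) := by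
  choose ℓ hℓ using hlim
  obtain ⟨R, hR⟩ := exists_reps_of_finiteIndex Γ
  have hP : ∀ δ : SL(2, ℤ), ∃ b : ℝ, (∀ w ∈ 𝒟, v (δ • w) ≤ b) ∧ ((∃ z, b = v z) ∨ b = ℓ δ) := by
    intro δ
    rcases exists_bound_on_fd hv δ (hℓ δ) with ⟨z, hz⟩ | h
    · exact ⟨v z, hz, Or.inl ⟨z, rfl⟩⟩
    · exact ⟨ℓ δ, h, Or.inr rfl⟩
  choose b hb1 hb2 using hP
  have hRne : R.Nonempty := by
    obtain ⟨δ, hδ, -⟩ := hR 1
    exact ⟨δ, hδ⟩
  obtain ⟨δs, hδs, hmax⟩ := Finset.exists_max_image R b hRne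
  have hall : ∀ z : ℍ, v z ≤ b δs := by
    intro z
    obtain ⟨g, hg⟩ := ModularGroup.exists_smul_mem_fd z
    obtain ⟨δ, hδ, γ, hγ, hgγ⟩ := hR g⁻¹
    have hz : z = γ • (δ • (g • z)) := by
      rw [← mul_smul, ← mul_smul, ← hgγ, inv_mul_cancel, one_smul]
    calc v z = v (γ • (δ • (g • z))) := by rw [← hz]
      _ = v (δ • (g • z)) := hinv γ hγ _
      _ ≤ b δ := hb1 δ _ hg
      _ ≤ b δs := hmax δ hδ
  rcases hb2 δs with ⟨z0, hz0⟩ | h
  · left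
    exact ⟨z0, fun z => hz0 ▸ hall z⟩
  · right
    exact ⟨δs, ℓ δs, hℓ δs, fun z => h ▸ hall z⟩

/-- A holomorphic periodic function on `ℍ` which is bounded at `i∞` has a limit at `i∞`. -/
theorem exists_tendsto_of_periodic_of_bounded {φ : ℍ → ℂ} (hφ : MDiff φ) {M : ℕ} (hM : 0 < M)
    (hper : ∀ w : ℍ, φ ((M : ℝ) +ᵥ w) = φ w) (hbdd : IsBoundedAtImInfty φ) :
    ∃ L : ℂ, Tendsto φ atImInfty (𝓝 L) := by
  have hM' : (0 : ℝ) < (M : ℝ) := by exact_mod_cast hM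
  set fC : ℂ → ℂ := φ ∘ ofComplex with hfC
  have hfd : DifferentiableOn ℂ fC upperHalfPlaneSet := UpperHalfPlane.mdifferentiable_iff.mp hφ
  have hfda : ∀ w : ℂ, 0 < w.im → DifferentiableAt ℂ fC w := fun w hw =>
    (hfd w hw).differentiableAt (isOpen_upperHalfPlaneSet.mem_nhds hw)
  have hfper : Periodic fC (M : ℝ) := by
    intro w
    simp only [hfC, Function.comp_apply]
    by_cases hw : 0 < w.im
    · have hw' : 0 < (w + ((M : ℝ) : ℂ)).im := by simpa using hw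
      have e : ofComplex (w + ((M : ℝ) : ℂ)) = (M : ℝ) +ᵥ ofComplex w := by
        apply UpperHalfPlane.ext
        rw [ofComplex_apply_of_im_pos hw', coe_vadd, ofComplex_apply_of_im_pos hw]
        simp [add_comm]
      rw [e]
      exact hper _
    · have hw0 : w.im ≤ 0 := not_lt.mp hw
      have hw' : (w + ((M : ℝ) : ℂ)).im ≤ 0 := by simpa using hw0
      rw [ofComplex_apply_of_im_nonpos hw0, ofComplex_apply_of_im_nonpos hw']
  have hhol : ∀ᶠ w in comap Complex.im atTop, DifferentiableAt ℂ fC w := by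
    have : ∀ᶠ w in comap Complex.im atTop, (0 : ℝ) < w.im :=
      (tendsto_comap (f := Complex.im) (x := atTop)).eventually (eventually_gt_atTop 0)
    exact this.mono hfda
  have hbd : BoundedAtFilter (comap Complex.im atTop) fC :=
    hbdd.comp_tendsto tendsto_comap_im_ofComplex
  have htend := Periodic.tendsto_at_I_inf hM' hfper hhol hbd
  refine ⟨Periodic.cuspFunction (M : ℝ) fC 0, ?_⟩
  have hcoe : Tendsto (fun w : ℍ => (w : ℂ)) atImInfty (comap Complex.im atTop) := by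
    rw [tendsto_comap_iff]
    exact tendsto_comap
  have := htend.comp hcoe
  refine this.congr fun w => ?_
  simp [hfC, ofComplex_apply]

/-- **Maximum principle, generic form**: a holomorphic function on `ℍ` whose norm is invariant
under a finite index subgroup `Γ` of `SL(2, ℤ)`, and which is periodic and bounded at every cusp,
is constant. -/
theorem eq_const_of_norm_invariant (Γ : Subgroup SL(2, ℤ)) [Γ.FiniteIndex] {φ : ℍ → ℂ}
    (hφ : MDiff φ) (hinv : ∀ γ ∈ Γ, ∀ z : ℍ, ‖φ (γ • z)‖ = ‖φ z‖)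
    (hper : ∀ δ : SL(2, ℤ), ∃ M : ℕ, 0 < M ∧ ∀ w : ℍ, φ (δ • ((M : ℝ) +ᵥ w)) = φ (δ • w))
    (hbdd : ∀ δ : SL(2, ℤ), IsBoundedAtImInfty (fun w : ℍ => φ (δ • w))) :
    ∃ c : ℂ, ∀ z : ℍ, φ z = c := by
  have hElim : ∀ δ : SL(2, ℤ), ∃ L : ℂ, Tendsto (fun w : ℍ => φ (δ • w)) atImInfty (𝓝 L) := by
    intro δ
    obtain ⟨M, hM, hMper⟩ := hper δ
    exact exists_tendsto_of_periodic_of_bounded (mdiff_comp_SL hφ δ) hM hMper (hbdd δ)
  have hvlim : ∀ δ : SL(2, ℤ), ∃ ℓ : ℝ,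
      Tendsto (fun w : ℍ => ‖φ (δ • w)‖) atImInfty (𝓝 ℓ) := by
    intro δ
    obtain ⟨L, hL⟩ := hElim δ
    exact ⟨‖L‖, hL.norm⟩
  rcases exists_max_or_cusp_of_finiteIndex Γ hφ.continuous.norm hinv hvlim with
    ⟨z0, hz0⟩ | ⟨δ, ℓ, hℓ, hle⟩
  · exact ⟨φ z0, eq_const_of_norm_le hφ z0 hz0⟩
  · obtain ⟨L, hL⟩ := hElim δ
    have hℓL : ℓ = ‖L‖ := tendsto_nhds_unique hℓ hL.norm
    obtain ⟨M, hM, hMper⟩ := hper δ
    exact ⟨L, eq_const_of_norm_le_cusp hφ δ hM hMper hL (fun z => hℓL ▸ hle z)⟩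

end Fermat.Agent.S21.MaxPrinciple7
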