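/-
S21 (Eichler–Shimura), analytic half, part 1 (helper26): the primitive `Fp f` of a weight-2 cusp
form vanishing at `i∞` (built on the S22 machinery `primInfty`/`eichF`), all the properties
required by the Prelude's `HasEquivariantPrimitive`, uniqueness of such a primitive, the
resulting formula for `periodMap`, and its linearity (`ExistsPeriodMapLinear`).
-/
import Mathlib
import Fermat.Prelude.Def_ModularCurve_PeriodHomPair
import Fermat.Agent.S22.EichlerPrim
import Fermat.Agent.S22.Decay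
import Fermat.Agent.S22.Cocycle

set_option autoImplicit false

namespace Fermat.Agent.S21.PeriodPrim

open UpperHalfPlane hiding I
open Complex Filter Topology CongruenceSubgroup Asymptotics
open scoped Manifold ModularForm MatrixGroups
open Fermat.Agent.S22 Matrix.SpecialLinearGroup

/-- The primitive of `f` vanishing at `i∞`. -/
noncomputable def Fp (f : ℍ → ℂ) (z : ℍ) : ℂ := eichF 0 f z 1 0

theorem eichF_zero_eq (f : ℍ → ℂ) (z : ℍ) (x y : ℂ) : eichF 0 f z x y = Fp f z := by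
  simp [Fp, eichF]

section general

variable {f f' : ℍ → ℂ} {a b : ℝ}

theorem hasDerivAt_Fp (ha : 0 < a) (hf : MDiff f)
    (hfd : f =O[atImInfty] fun τ => Real.exp (-a * τ.im)) (z : ℍ) :
    HasDerivAt (Fp f ∘ ofComplex) (f z) (z : ℂ) := by
  have h := eichF_hasDerivAt ha hf hfd 0 1 0 z
  simpa [Fp, Function.comp_def] using h

theorem Fp_add (ha : 0 < a) (hb : 0 < b) (hf : MDiff f) (hf' : MDiff f')
    (hfd : f =O[atImInfty] fun τ => Real.exp (-a * τ.im))
    (hfd' : f' =O[atImInfty] fun τ => Real.exp (-b * τ.im)) (z : ℍ) :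
    Fp (f + f') z = Fp f z + Fp f' z :=
  eichF_add ha hb hf hf' hfd hfd' 0 z 1 0

theorem Fp_smul (c : ℂ) (f : ℍ → ℂ) (z : ℍ) : Fp (c • f) z = c * Fp f z :=
  eichF_smul c f 0 z 1 0

/-- Uniform exponential decay of the primitive. -/
theorem norm_Fp_le (ha : 0 < a) (hf : MDiff f)
    (hfd : f =O[atImInfty] fun τ => Real.exp (-a * τ.im)) :
    ∃ C A : ℝ, ∀ z : ℍ, A ≤ z.im → ‖Fp f z‖ ≤ C * Real.exp (-a * z.im) := by
  obtain ⟨C, hC⟩ := Asymptotics.isBigO_iff.mp hfd
  obtain ⟨A, hA⟩ := (atImInfty_mem _).mp hC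
  have hφ : MDiff (eichIntegrand 0 f 1 0) := mdiff_eichIntegrand hf 0 1 0
  have hd : VertDecay (eichIntegrand 0 f 1 0) := vertDecay_eichIntegrand ha hf hfd 0 1 0
  refine ⟨C / a, A, fun z hz => ?_⟩
  have h1 : Fp f z = primC (eichIntegrand 0 f 1 0 ∘ ofComplex) (z : ℂ) := by
    rw [Fp, eichF_def, primInfty_eq_primC hφ hd]
  rw [h1]
  refine norm_primC_le (differentiableOn_of_mdiff hφ) hd (coe_mem_UH z) ha (fun t ht => ?_)
  have him : 0 < ((z : ℂ) + t * I).im := by
    simp only [Complex.add_im, Complex.mul_im, Complex.ofReal_re, Complex.I_im, mul_one,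
      Complex.ofReal_im, Complex.I_re, mul_zero, add_zero]
    exact add_pos_of_pos_of_nonneg z.im_pos ht
  have e : (ofComplex ((z : ℂ) + t * I) : ℍ).im = z.im + t := by
    rw [ofComplex_apply_of_im_pos him]
    show ((z : ℂ) + t * I).im = _
    simp
  have h2 := hA (ofComplex ((z : ℂ) + t * I)) (by rw [e]; linarith [hz])
  simp only [Set.mem_ofPred_eq, Real.norm_eq_abs, abs_of_pos (Real.exp_pos _)] at h2
  rw [e] at h2
  have e2 : (z : ℂ).im = z.im := rfl
  rw [e2]
  simpa [eichIntegrand, Function.comp_def] using h2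

theorem tendsto_Fp (ha : 0 < a) (hf : MDiff f)
    (hfd : f =O[atImInfty] fun τ => Real.exp (-a * τ.im)) :
    Tendsto (Fp f) atImInfty (𝓝 0) := by
  obtain ⟨C, A, h⟩ := norm_Fp_le ha hf hfd
  have hlim : Tendsto (fun z : ℍ => C * Real.exp (-a * z.im)) atImInfty (𝓝 0) := by
    have h1 : Tendsto (fun z : ℍ => z.im) atImInfty atTop := tendsto_comap
    have h2 : Tendsto (fun y : ℝ => Real.exp (-a * y)) atTop (𝓝 0) := by
      have : Tendsto (fun y : ℝ => -a * y) atTop atBot :=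
        tendsto_id.const_mul_atTop_of_neg (by linarith)
      exact Real.tendsto_exp_atBot.comp this
    simpa using (h2.comp h1).const_mul C
  refine squeeze_zero_norm' ?_ hlim
  rw [atImInfty, eventually_comap]
  filter_upwards [eventually_ge_atTop A] with y hy z hz
  exact h z (by rw [hz]; exact hy)

/-- Transformation law: `Fp f ∘ g - Fp (f ∣[2] g)` is constant. -/
theorem Fp_smul_sub_const (ha : 0 < a) (hb : 0 < b) (hf : MDiff f)
    (hfd : f =O[atImInfty] fun τ => Real.exp (-a * τ.im))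
    (g : GL (Fin 2) ℝ) (hg : 0 < g.det.val)
    (hgd : (f ∣[(2 : ℤ)] g) =O[atImInfty] fun τ => Real.exp (-b * τ.im)) :
    ∃ c : ℂ, ∀ z : ℍ, Fp f (g • z) - Fp (f ∣[(2 : ℤ)] g) z = c := by
  have e : (((0 : ℕ) : ℤ) + 2) = 2 := by norm_num
  obtain ⟨c, hc⟩ := eichF_smul_sub_const ha hb hf hfd 0 g hg (by rw [e]; exact hgd) 1 0
  refine ⟨c, fun z => ?_⟩
  have := hc z
  rw [eichF_zero_eq, eichF_zero_eq, e] at this
  exact this

end general

/-! ### Cusp forms of level `Γ₀(N)` -/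

section cusp

variable {N : ℕ} [NeZero N]

omit [NeZero N] in
theorem cusp_mdiff (f : CuspForm (Gamma0 N) 2) : MDiff (f : ℍ → ℂ) := CuspFormClass.holo f

theorem cusp_decay (f : CuspForm (Gamma0 N) 2) :
    ∃ a > 0, (f : ℍ → ℂ) =O[atImInfty] fun τ => Real.exp (-a * τ.im) :=
  CuspFormClass.exp_decay_atImInfty' f

theorem cusp_slash_decay (f : CuspForm (Gamma0 N) 2) (δ : SL(2, ℤ)) :
    ∃ a > 0, ((f : ℍ → ℂ) ∣[(2 : ℤ)] (mapGL ℝ δ)) =O[atImInfty] fun τ => Real.exp (-a * τ.im) := by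
  obtain ⟨a, ha, h⟩ := expDecay_slash_SL f δ
  exact ⟨a, ha, h⟩

theorem det_mapGL_pos (δ : SL(2, ℤ)) : 0 < (mapGL ℝ δ : GL (Fin 2) ℝ).det.val := by
  simp

omit [NeZero N] in
theorem cusp_slash_eq (f : CuspForm (Gamma0 N) 2) (γ : Gamma0 N) :
    (f : ℍ → ℂ) ∣[(2 : ℤ)] (mapGL ℝ (γ : SL(2, ℤ))) = f :=
  SlashInvariantForm.slash_action_eqn f _ (Subgroup.mem_map_of_mem _ γ.2)

/-- `Fp f` transforms under `γ ∈ Γ₀(N)` by an additive constant. -/
theorem Fp_isEquivariantPrimitive (f : CuspForm (Gamma0 N) 2) :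
    ModularCurve.Period.IsEquivariantPrimitive (Gamma0 N) (Fp f) := by
  intro γ
  obtain ⟨a, ha, hfd⟩ := cusp_decay f
  obtain ⟨c, hc⟩ := Fp_smul_sub_const ha ha (cusp_mdiff f) hfd (mapGL ℝ (γ : SL(2, ℤ)))
    (det_mapGL_pos _) (by rw [cusp_slash_eq]; exact hfd)
  refine ⟨c, fun z => ?_⟩
  have := hc z
  rw [cusp_slash_eq] at this
  exact this

/-- Limits at all cusps. -/
theorem Fp_cusp_limit (f : CuspForm (Gamma0 N) 2) (δ : SL(2, ℤ)) :
    ∃ L : ℂ, Tendsto (fun w : ℍ => Fp f (δ • w)) atImInfty (𝓝 L) := by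
  obtain ⟨a, ha, hfd⟩ := cusp_decay f
  obtain ⟨b, hb, hgd⟩ := cusp_slash_decay f δ
  obtain ⟨c, hc⟩ := Fp_smul_sub_const ha hb (cusp_mdiff f) hfd (mapGL ℝ δ)
    (det_mapGL_pos _) hgd
  refine ⟨c, ?_⟩
  have h0 := tendsto_Fp hb ((cusp_mdiff f).slash _ _) hgd
  have h1 : Tendsto (fun w : ℍ => c + Fp ((f : ℍ → ℂ) ∣[(2 : ℤ)] (mapGL ℝ δ)) w) atImInfty
      (𝓝 (c + 0)) := tendsto_const_nhds.add h0
  rw [add_zero] at h1
  refine h1.congr fun w => ?_
  have := hc w
  have e : (mapGL ℝ δ : GL (Fin 2) ℝ) • w = δ • w := rfl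
  rw [e] at this
  rw [← this]; ring

/-- The Prelude's predicate holds for `Fp f`. -/
theorem hasEquivariantPrimitive (f : CuspForm (Gamma0 N) 2) :
    ModularCurve.HasEquivariantPrimitive N f (Fp f) := by
  obtain ⟨a, ha, hfd⟩ := cusp_decay f
  exact ⟨fun τ => hasDerivAt_Fp ha (cusp_mdiff f) hfd τ, tendsto_Fp ha (cusp_mdiff f) hfd,
    Fp_isEquivariantPrimitive f, Fp_cusp_limit f⟩

/-- Uniqueness: any function satisfying the Prelude's predicate is `Fp f`. -/
theorem eq_Fp_of_hasEquivariantPrimitive (f : CuspForm (Gamma0 N) 2) {F : ℍ → ℂ}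
    (hF : ModularCurve.HasEquivariantPrimitive N f F) : F = Fp f := by
  obtain ⟨a, ha, hfd⟩ := cusp_decay f
  set H : ℂ → ℂ := fun w => F (ofComplex w) - Fp f (ofComplex w) with hH
  have hder : ∀ w ∈ upperHalfPlaneSet, HasDerivAt H 0 w := by
    intro w hw
    have h1 := hF.1 ⟨w, hw⟩
    have h2 := hasDerivAt_Fp ha (cusp_mdiff f) hfd ⟨w, hw⟩
    have := h1.sub h2
    rw [sub_self] at this
    exact this
  obtain ⟨c, hc⟩ := isOpen_upperHalfPlaneSet.exists_is_const_of_deriv_eq_zero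
    (convex_halfSpace_im_gt 0).isPreconnected
    (fun w hw => (hder w hw).differentiableAt.differentiableWithinAt)
    (fun w hw => (hder w hw).deriv)
  have hc' : ∀ z : ℍ, F z - Fp f z = c := fun z => by
    have := hc (z : ℂ) z.im_pos
    simpa [hH, ofComplex_apply] using this
  have hlim : Tendsto (fun z : ℍ => F z - Fp f z) atImInfty (𝓝 (0 - 0)) :=
    hF.2.1.sub (tendsto_Fp ha (cusp_mdiff f) hfd)
  rw [sub_zero] at hlim
  have hconst : Tendsto (fun _ : ℍ => c) atImInfty (𝓝 0) := hlim.congr hc'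
  have hc0 : c = 0 := tendsto_nhds_unique tendsto_const_nhds hconst
  funext z
  have := hc' z
  rw [hc0, sub_eq_zero] at this
  exact this

/-- Formula for the Prelude's period map. -/
theorem periodMap_apply (f : CuspForm (Gamma0 N) 2) (γ : Gamma0 N) (z : ℍ) :
    ModularCurve.periodMap N f (Additive.ofMul γ) = Fp f ((γ : SL(2, ℤ)) • z) - Fp f z := by
  obtain ⟨F₀, h₀, hP⟩ := ModularCurve.periodMap_def N f (hasEquivariantPrimitive f)
  have hF₀ : F₀ = Fp f := eq_Fp_of_hasEquivariantPrimitive f h₀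
  subst hF₀
  rw [hP, ModularCurve.Period.IsEquivariantPrimitive.periodHom_apply,
    ← ModularCurve.Period.IsEquivariantPrimitive.sub_eq_period _ γ z]

theorem periodMap_add (f g : CuspForm (Gamma0 N) 2) :
    ModularCurve.periodMap N (f + g) = ModularCurve.periodMap N f + ModularCurve.periodMap N g := by
  obtain ⟨a, ha, hfd⟩ := cusp_decay f
  obtain ⟨b, hb, hgd⟩ := cusp_decay g
  refine AddMonoidHom.ext fun γ => ?_
  obtain ⟨γ, rfl⟩ := Additive.ofMul.surjective γ
  rw [AddMonoidHom.add_apply, periodMap_apply _ γ UpperHalfPlane.I,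
    periodMap_apply _ γ UpperHalfPlane.I, periodMap_apply _ γ UpperHalfPlane.I]
  have e : ((f + g : CuspForm (Gamma0 N) 2) : ℍ → ℂ) = (f : ℍ → ℂ) + (g : ℍ → ℂ) := rfl
  rw [e, Fp_add ha hb (cusp_mdiff f) (cusp_mdiff g) hfd hgd,
    Fp_add ha hb (cusp_mdiff f) (cusp_mdiff g) hfd hgd]
  ring

theorem periodMap_smul (c : ℂ) (f : CuspForm (Gamma0 N) 2) :
    ModularCurve.periodMap N (c • f) = c • ModularCurve.periodMap N f := by
  refine AddMonoidHom.ext fun γ => ?_
  obtain ⟨γ, rfl⟩ := Additive.ofMul.surjective γ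
  rw [AddMonoidHom.smul_apply, periodMap_apply _ γ UpperHalfPlane.I,
    periodMap_apply _ γ UpperHalfPlane.I]
  have e : ((c • f : CuspForm (Gamma0 N) 2) : ℍ → ℂ) = c • (f : ℍ → ℂ) := rfl
  rw [e, Fp_smul, Fp_smul, smul_eq_mul]
  ring

/-- The period map as a linear map. -/
noncomputable def periodLin (N : ℕ) [NeZero N] :
    CuspForm (Gamma0 N) 2 →ₗ[ℂ] (Additive (Gamma0 N) →+ ℂ) where
  toFun f := ModularCurve.periodMap N f
  map_add' := periodMap_add
  map_smul' c f := by simpa using periodMap_smul c f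

@[simp] theorem periodLin_apply (f : CuspForm (Gamma0 N) 2) :
    periodLin N f = ModularCurve.periodMap N f := rfl

theorem existsPeriodMapLinear (N : ℕ) [NeZero N] : ModularCurve.ExistsPeriodMapLinear N :=
  ⟨periodLin N, fun _ => rfl⟩

/-- Formula for the Prelude's `periodHomPair`. -/
theorem periodHomPair_apply (f g : CuspForm (Gamma0 N) 2) :
    ModularCurve.periodHomPair N (f, g) =
      (ModularCurve.periodMap N f
        + ModularCurve.Period.charInvolution N ℂ ℂ (ModularCurve.periodMap N f))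
      + (ModularCurve.periodMap N g
        - ModularCurve.Period.charInvolution N ℂ ℂ (ModularCurve.periodMap N g)) := by
  obtain ⟨pml, hpml, hP⟩ := ModularCurve.periodHomPair_def N (existsPeriodMapLinear N)
  rw [hP]
  simp [LinearMap.coprod_apply, hpml]

end cusp

end Fermat.Agent.S21.PeriodPrim
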