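/-
S21 (Eichler–Shimura), analytic half, part 4 (helper26): the period pairing
`periodHomPair N : S₂(Γ₀(N)) × S₂(Γ₀(N)) → Hom(Γ₀(N), ℂ)` is injective.

If `periodHomPair N (f, g) = 0` then with `u = f + g`, `v = f - g`, `A = Fp u`, `B = Fp v`
(primitives vanishing at `i∞`) the function `h z = A z + B (-conj z)` is `Γ₀(N)`-invariant.
`G₁ = A + B~` and `G₂ = -i (A - B~)` (`B~ z = conj (B (-conj z))`, holomorphic) have real parts
`Re h` and `Im h`; the maximum principle (helper7, `MaxPrinciple7.lean`) gives `G₁' = G₂' = 0`,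
i.e. `u = 0` and `v = 0`.
-/
import Mathlib
import Fermat.Prelude.Def_ModularCurve_PeriodHomPair
import Fermat.Agent.S21.PeriodPrim
import Fermat.Agent.S21.Parabolic
import Fermat.Agent.S21.MaxPrinciple7

set_option autoImplicit false

namespace Fermat.Agent.S21.PeriodInj

open UpperHalfPlane hiding I
open Complex Filter Topology CongruenceSubgroup
open scoped MatrixGroups Manifold
open ModularCurve ModularCurve.Period
open Fermat.Agent.S21.PeriodPrim

/-! ### The antiholomorphic involution `z ↦ -conj z` -/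

/-- The antiholomorphic involution `z ↦ -conj z` of `ℍ`. -/
def cH (z : ℍ) : ℍ := ⟨-(starRingEnd ℂ) (z : ℂ), by simpa using z.im_pos⟩

@[simp] theorem coe_cH (z : ℍ) : ((cH z : ℍ) : ℂ) = -(starRingEnd ℂ) (z : ℂ) := rfl

@[simp] theorem im_cH (z : ℍ) : (cH z).im = z.im := by
  show (-(starRingEnd ℂ) (z : ℂ)).im = _
  simp

@[simp] theorem cH_cH (z : ℍ) : cH (cH z) = z := by
  apply UpperHalfPlane.ext
  simp

theorem cH_smul (γ : SL(2, ℤ)) (z : ℍ) : cH (γ • z) = jConjSL γ • cH z := by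
  apply UpperHalfPlane.ext
  rw [coe_cH, coe_specialLinearGroup_apply, coe_specialLinearGroup_apply, coe_cH]
  simp only [jConjSL_coe, jConjMat_apply_zero_zero, jConjMat_apply_zero_one,
    jConjMat_apply_one_zero, jConjMat_apply_one_one]
  rw [map_div₀, ← neg_div]
  simp only [map_add, map_mul, Complex.conj_ofReal, algebraMap_int_eq, eq_intCast, Int.cast_neg]
  congr 1 <;> push_cast <;> ring

theorem cH_vadd (x : ℝ) (z : ℍ) : cH (x +ᵥ z) = (-x) +ᵥ cH z := by
  apply UpperHalfPlane.ext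
  simp [coe_vadd]
  ring

theorem tendsto_cH : Tendsto cH atImInfty atImInfty := by
  rw [atImInfty, tendsto_comap_iff]
  have : (UpperHalfPlane.im ∘ cH) = UpperHalfPlane.im := by
    funext z; simp
  rw [this]
  exact tendsto_comap

/-! ### Conjugates of `T ^ N` -/

theorem conj_T_pow_mem (N : ℕ) (δ : SL(2, ℤ)) :
    δ * ModularGroup.T ^ (N : ℤ) * δ⁻¹ ∈ Gamma0 N := by
  have h1 : ModularGroup.T ^ (N : ℤ) ∈ CongruenceSubgroup.Gamma N := by
    simpa using ModularGroup_T_pow_mem_Gamma (N : ℤ) (N : ℤ) dvd_rfl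
  have h2 : δ * ModularGroup.T ^ (N : ℤ) * δ⁻¹ ∈ CongruenceSubgroup.Gamma N :=
    (Gamma_normal N).conj_mem _ h1 δ
  rw [Gamma_mem] at h2
  exact Gamma0_mem.mpr h2.2.2.1

theorem conj_T_pow_trace (n : ℤ) (δ : SL(2, ℤ)) :
    ((δ * ModularGroup.T ^ n * δ⁻¹ : SL(2, ℤ)) : Matrix (Fin 2) (Fin 2) ℤ).trace ^ 2 = 4 := by
  have : ((δ * ModularGroup.T ^ n * δ⁻¹ : SL(2, ℤ)) : Matrix (Fin 2) (Fin 2) ℤ).trace = 2 := by
    rw [Matrix.SpecialLinearGroup.coe_mul, Matrix.SpecialLinearGroup.coe_mul,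
      Matrix.trace_mul_cycle, ← Matrix.SpecialLinearGroup.coe_mul, inv_mul_cancel,
      Matrix.SpecialLinearGroup.coe_one, one_mul, ModularGroup.coe_T_zpow, Matrix.trace_fin_two_of]
    norm_num
  rw [this]; norm_num

/-! ### The conjugate primitive -/

/-- `B~ z = conj (B (-conj z))`. -/
noncomputable def conjPrim (F : ℍ → ℂ) (z : ℍ) : ℂ := (starRingEnd ℂ) (F (cH z))

theorem hasDerivAt_conjPrim {F f : ℍ → ℂ}
    (hF : ∀ z : ℍ, HasDerivAt (F ∘ ofComplex) (f z) (z : ℂ)) (z : ℍ) :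
    HasDerivAt (conjPrim F ∘ ofComplex) (-(starRingEnd ℂ) (f (cH z))) (z : ℂ) := by
  have h0 := hF (cH z)
  rw [coe_cH] at h0
  have hneg : HasDerivAt (fun u : ℂ => -u) (-1) ((starRingEnd ℂ) (z : ℂ)) :=
    (hasDerivAt_id _).neg
  have h1 : HasDerivAt (fun u : ℂ => (F ∘ ofComplex) (-u)) (f (cH z) * (-1))
      ((starRingEnd ℂ) (z : ℂ)) :=
    HasDerivAt.comp ((starRingEnd ℂ) (z : ℂ)) (h₂ := F ∘ ofComplex) (h := fun u : ℂ => -u) h0 hneg
  have h2 := h1.conj_conj
  rw [Complex.conj_conj] at h2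
  have hd : (starRingEnd ℂ) (f (cH z) * (-1)) = -(starRingEnd ℂ) (f (cH z)) := by simp
  rw [hd] at h2
  refine h2.congr_of_eventuallyEq ?_
  filter_upwards [isOpen_upperHalfPlaneSet.mem_nhds z.im_pos] with w hw
  have hw' : 0 < w.im := hw
  have hw2 : 0 < (-(starRingEnd ℂ) w).im := by simpa using hw'
  simp only [Function.comp_apply, conjPrim]
  congr 2
  rw [ofComplex_apply_of_im_pos hw', ofComplex_apply_of_im_pos hw2]
  rfl

/-! ### Periodicity at the cusps -/

section cusp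

variable {N : ℕ} [NeZero N]

theorem Fp_periodic (f : CuspForm (Gamma0 N) 2) (δ : SL(2, ℤ)) (w : ℍ) :
    Fp f (δ • ((N : ℝ) +ᵥ w)) = Fp f (δ • w) := by
  set γ : Gamma0 N := ⟨δ * ModularGroup.T ^ (N : ℤ) * δ⁻¹, conj_T_pow_mem N δ⟩ with hγ
  have h1 := periodMap_apply f γ (δ • w)
  have h2 : periodMap N f (Additive.ofMul γ) = 0 :=
    (mem_parabolicHoms_iff.mp (Parabolic.periodMap_mem_parabolicHoms N f)) γ
      (conj_T_pow_trace _ δ)
  have h3 : ((γ : Gamma0 N) : SL(2, ℤ)) • (δ • w) = δ • ((N : ℝ) +ᵥ w) := by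
    show (δ * ModularGroup.T ^ (N : ℤ) * δ⁻¹) • (δ • w) = _
    rw [mul_smul, inv_smul_smul, mul_smul, modular_T_zpow_smul]
    simp
  rw [h2, h3] at h1
  exact (sub_eq_zero.mp h1.symm)

end cusp

/-! ### Injectivity -/

theorem periodHomPair_injective (N : ℕ) [NeZero N] :
    Function.Injective (periodHomPair N) := by
  rw [injective_iff_map_eq_zero]
  rintro ⟨f, g⟩ h0
  set u : CuspForm (Gamma0 N) 2 := f + g with hu
  set v : CuspForm (Gamma0 N) 2 := f - g with hv
  -- the relation between the periods of `u` and `v`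
  have hrel : ∀ γ : Gamma0 N, periodMap N u (Additive.ofMul γ)
      + periodMap N v (Additive.ofMul (jConjGamma0 N γ)) = 0 := by
    intro γ
    have h1 := congrArg (fun φ : Additive (Gamma0 N) →+ ℂ => φ (Additive.ofMul γ)) h0
    simp only [periodHomPair_apply, AddMonoidHom.add_apply, AddMonoidHom.sub_apply,
      charInvolution_apply, toMul_ofMul, AddMonoidHom.zero_apply] at h1
    have eu : periodMap N u = periodMap N f + periodMap N g := periodMap_add f g
    have ev : periodMap N v = periodMap N f - periodMap N g := by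
      have := periodMap_add v g
      rw [hv, sub_add_cancel] at this
      rw [hv, this]; abel
    rw [eu, ev]
    simp only [AddMonoidHom.add_apply, AddMonoidHom.sub_apply]
    linear_combination h1
  obtain ⟨a, ha, hud⟩ := cusp_decay u
  obtain ⟨b, hb, hvd⟩ := cusp_decay v
  have hA : ∀ z : ℍ, HasDerivAt (Fp u ∘ ofComplex) (u z) (z : ℂ) :=
    fun z => hasDerivAt_Fp ha (cusp_mdiff u) hud z
  have hB : ∀ z : ℍ, HasDerivAt (Fp v ∘ ofComplex) (v z) (z : ℂ) :=
    fun z => hasDerivAt_Fp hb (cusp_mdiff v) hvd z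
  have hB' := hasDerivAt_conjPrim hB
  -- transformation of `A` and `B~` under `γ ∈ Γ₀(N)`
  have hAγ : ∀ (γ : Gamma0 N) (z : ℍ), Fp u ((γ : SL(2, ℤ)) • z)
      = Fp u z + periodMap N u (Additive.ofMul γ) := by
    intro γ z; rw [periodMap_apply u γ z]; ring
  have hBγ : ∀ (γ : Gamma0 N) (z : ℍ), conjPrim (Fp v) ((γ : SL(2, ℤ)) • z)
      = conjPrim (Fp v) z
        + (starRingEnd ℂ) (periodMap N v (Additive.ofMul (jConjGamma0 N γ))) := by
    intro γ z
    simp only [conjPrim]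
    rw [cH_smul, ← map_add]
    congr 1
    have := periodMap_apply v (jConjGamma0 N γ) (cH z)
    rw [jConjGamma0_coe] at this
    rw [this]; ring
  -- limits at the cusps
  have hlimA : ∀ δ : SL(2, ℤ), ∃ L : ℂ,
      Tendsto (fun w : ℍ => Fp u (δ • w)) atImInfty (𝓝 L) := Fp_cusp_limit u
  have hlimB : ∀ δ : SL(2, ℤ), ∃ L : ℂ,
      Tendsto (fun w : ℍ => conjPrim (Fp v) (δ • w)) atImInfty (𝓝 L) := by
    intro δ
    obtain ⟨L, hL⟩ := Fp_cusp_limit v (jConjSL δ)
    refine ⟨(starRingEnd ℂ) L, ?_⟩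
    have h1 : Tendsto (fun w : ℍ => Fp v (jConjSL δ • cH w)) atImInfty (𝓝 L) :=
      hL.comp tendsto_cH
    have h2 := (Complex.continuous_conj.tendsto L).comp h1
    refine h2.congr fun w => ?_
    simp only [Function.comp_apply, conjPrim, cH_smul]
  -- periodicity at the cusps
  have hN : 0 < N := Nat.pos_of_ne_zero (NeZero.ne N)
  have hperA : ∀ (δ : SL(2, ℤ)) (w : ℍ), Fp u (δ • ((N : ℝ) +ᵥ w)) = Fp u (δ • w) :=
    Fp_periodic u
  have hperB : ∀ (δ : SL(2, ℤ)) (w : ℍ),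
      conjPrim (Fp v) (δ • ((N : ℝ) +ᵥ w)) = conjPrim (Fp v) (δ • w) := by
    intro δ w
    simp only [conjPrim, cH_smul, cH_vadd]
    congr 1
    have := Fp_periodic v (jConjSL δ) ((-(N : ℝ)) +ᵥ cH w)
    rw [← this]
    congr 2
    rw [← add_vadd]
    simp
  -- first function: `G₁ = A + B~`
  have key1 : ∀ z : ℍ, u z + -(starRingEnd ℂ) (v (cH z)) = 0 := by
    refine MaxPrinciple7.eq_zero_of_hasDerivAt_of_re_invariant N
      (G := fun z => Fp u z + conjPrim (Fp v) z) (fun z => (hA z).add (hB' z)) ?_ ?_ ?_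
    · intro γ hγ z
      have e1 := hAγ ⟨γ, hγ⟩ z
      have e2 := hBγ ⟨γ, hγ⟩ z
      have e3 := hrel ⟨γ, hγ⟩
      simp only at e1 e2
      rw [e1, e2]
      have e4 : periodMap N u (Additive.ofMul (⟨γ, hγ⟩ : Gamma0 N))
          = -periodMap N v (Additive.ofMul (jConjGamma0 N ⟨γ, hγ⟩)) := by
        linear_combination e3
      rw [e4]
      simp only [Complex.add_re, Complex.neg_re, Complex.conj_re]
      ring
    · intro δ
      obtain ⟨L₁, h1⟩ := hlimA δ
      obtain ⟨L₂, h2⟩ := hlimB δ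
      exact ⟨L₁ + L₂, h1.add h2⟩
    · intro δ
      exact ⟨N, hN, fun w => by rw [hperA δ w, hperB δ w]⟩
  -- second function: `G₂ = -i (A - B~)`
  have key2 : ∀ z : ℍ, -I * (u z - -(starRingEnd ℂ) (v (cH z))) = 0 := by
    refine MaxPrinciple7.eq_zero_of_hasDerivAt_of_re_invariant N
      (G := fun z => -I * (Fp u z - conjPrim (Fp v) z))
      (fun z => ((hA z).sub (hB' z)).const_mul (-I)) ?_ ?_ ?_
    · intro γ hγ z
      have e1 := hAγ ⟨γ, hγ⟩ z
      have e2 := hBγ ⟨γ, hγ⟩ z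
      have e3 := hrel ⟨γ, hγ⟩
      simp only at e1 e2
      rw [e1, e2]
      have e4 : periodMap N u (Additive.ofMul (⟨γ, hγ⟩ : Gamma0 N))
          = -periodMap N v (Additive.ofMul (jConjGamma0 N ⟨γ, hγ⟩)) := by
        linear_combination e3
      rw [e4]
      simp only [Complex.mul_re, Complex.neg_re, Complex.neg_im, Complex.I_re, Complex.I_im,
        Complex.sub_re, Complex.sub_im, Complex.add_re, Complex.add_im, Complex.conj_re,
        Complex.conj_im]
      ring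
    · intro δ
      obtain ⟨L₁, h1⟩ := hlimA δ
      obtain ⟨L₂, h2⟩ := hlimB δ
      exact ⟨-I * (L₁ - L₂), (h1.sub h2).const_mul (-I)⟩
    · intro δ
      exact ⟨N, hN, fun w => by rw [hperA δ w, hperB δ w]⟩
  -- conclusion
  have hI : (-I : ℂ) ≠ 0 := neg_ne_zero.mpr I_ne_zero
  have hu0 : ∀ z : ℍ, u z = 0 := by
    intro z
    have k1 := key1 z
    have k2 := (mul_eq_zero.mp (key2 z)).resolve_left hI
    linear_combination (1 / 2 : ℂ) * k1 + (1 / 2 : ℂ) * k2
  have hv0 : ∀ z : ℍ, v z = 0 := by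
    intro z
    have k1 := key1 (cH z)
    have k2 := (mul_eq_zero.mp (key2 (cH z))).resolve_left hI
    rw [cH_cH] at k1 k2
    have : (starRingEnd ℂ) (v z) = 0 := by
      linear_combination (-1 / 2 : ℂ) * k1 + (1 / 2 : ℂ) * k2
    simpa using this
  have hf0 : ∀ z : ℍ, f z = 0 := by
    intro z
    have e1 : u z = f z + g z := rfl
    have e2 : v z = f z - g z := rfl
    have := hu0 z
    have := hv0 z
    linear_combination (1 / 2 : ℂ) * (hu0 z) + (1 / 2 : ℂ) * (hv0 z) - (1 / 2 : ℂ) * e1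
      - (1 / 2 : ℂ) * e2
  have hg0 : ∀ z : ℍ, g z = 0 := by
    intro z
    have e1 : u z = f z + g z := rfl
    have e2 : v z = f z - g z := rfl
    linear_combination (1 / 2 : ℂ) * (hu0 z) - (1 / 2 : ℂ) * (hv0 z) - (1 / 2 : ℂ) * e1
      + (1 / 2 : ℂ) * e2
  rw [Prod.mk_eq_zero]
  exact ⟨DFunLike.ext _ _ hf0, DFunLike.ext _ _ hg0⟩

end Fermat.Agent.S21.PeriodInj
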