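/-
S21/S20 assembly (helper26): from
* (UP1) `PeriodInj.periodHomPair_injective`, `Parabolic.range_periodHomPair_le`,
* (UP2) `ParBound.finrank_parabolicHoms_le` (helper1),
* numerics `GNMain.gn_genusFormula_eq_natCast` (helper20),
we get: `S₂(Γ₀(N))` is finite-dimensional of dimension `≤ genusFormula N`; and, GIVEN the lower
bound `genusFormula N ≤ dim S₂(Γ₀(N))` (LOW, Riemann–Roch), both S20 and S21.
-/
import Mathlib
import Fermat.Prelude.Def_ModularCurve_PeriodHomPair
import Fermat.Prelude.Def_ModularCurve_GenusNumerics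
import Fermat.Agent.S21.PeriodInj
import Fermat.Agent.S21.Parabolic
import Fermat.Agent.S21.ParBound
import Fermat.Agent.X0.GNMain

set_option autoImplicit false

namespace Fermat.Agent.S21.Assembly

open CongruenceSubgroup ModularCurve ModularCurve.Period

variable (N : ℕ) [NeZero N]

/-- The period pairing, with codomain restricted to the parabolic homomorphisms. -/
noncomputable def pairPar :
    (CuspForm (Gamma0 N) 2 × CuspForm (Gamma0 N) 2) →ₗ[ℂ] parabolicHoms ℂ (Gamma0 N) ℂ :=
  LinearMap.codRestrict _ (periodHomPair N)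
    (fun x => Parabolic.range_periodHomPair_le N ⟨x, rfl⟩)

theorem pairPar_injective : Function.Injective (pairPar N) := by
  intro x y h
  apply PeriodInj.periodHomPair_injective N
  exact congrArg Subtype.val h

instance finite_pair : Module.Finite ℂ (CuspForm (Gamma0 N) 2 × CuspForm (Gamma0 N) 2) :=
  Module.Finite.of_injective (pairPar N) (pairPar_injective N)

instance finite_cusp : Module.Finite ℂ (CuspForm (Gamma0 N) 2) :=
  Module.Finite.of_injective (LinearMap.inl ℂ (CuspForm (Gamma0 N) 2) (CuspForm (Gamma0 N) 2))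
    LinearMap.inl_injective

theorem two_mul_finrank_le :
    2 * Module.finrank ℂ (CuspForm (Gamma0 N) 2)
      ≤ Module.finrank ℂ (parabolicHoms ℂ (Gamma0 N) ℂ) := by
  have h := LinearMap.finrank_le_finrank_of_injective (pairPar_injective N)
  rw [Module.finrank_prod] at h
  omega

/-- **S20, upper bound.** -/
theorem finrank_le (g : ℕ) (hg : (g : ℚ) = genusFormula N) :
    Module.finrank ℂ (CuspForm (Gamma0 N) 2) ≤ g := by
  have h1 := two_mul_finrank_le N
  have h2 := ParBound.finrank_parabolicHoms_le N g hg
  omega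

theorem finrank_le_genusFormula :
    (Module.finrank ℂ (CuspForm (Gamma0 N) 2) : ℚ) ≤ genusFormula N := by
  obtain ⟨g, hg⟩ := Fermat.Agent.X0.GNMain.gn_genusFormula_eq_natCast N
  rw [hg]
  exact_mod_cast finrank_le N g hg.symm

/-- **S20 from the lower bound.** -/
theorem finrank_eq_of_le
    (hlow : genusFormula N ≤ (Module.finrank ℂ (CuspForm (Gamma0 N) 2) : ℚ)) :
    (Module.finrank ℂ (CuspForm (Gamma0 N) 2) : ℚ) = genusFormula N :=
  le_antisymm (finrank_le_genusFormula N) hlow

/-- **S21 from the lower bound.** -/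
theorem eichlerShimura_of_le
    (hlow : genusFormula N ≤ (Module.finrank ℂ (CuspForm (Gamma0 N) 2) : ℚ)) :
    Function.Injective (periodHomPair N)
      ∧ LinearMap.range (periodHomPair N) = parabolicHoms ℂ (Gamma0 N) ℂ := by
  refine ⟨PeriodInj.periodHomPair_injective N, ?_⟩
  obtain ⟨g, hg⟩ := Fermat.Agent.X0.GNMain.gn_genusFormula_eq_natCast N
  have hg' : g ≤ Module.finrank ℂ (CuspForm (Gamma0 N) 2) := by
    rw [hg] at hlow
    exact_mod_cast hlow
  have h2 := ParBound.finrank_parabolicHoms_le N g hg.symm
  refine Submodule.eq_of_le_of_finrank_le (Parabolic.range_periodHomPair_le N) ?_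
  have h3 : Module.finrank ℂ (LinearMap.range (periodHomPair N))
      = Module.finrank ℂ (CuspForm (Gamma0 N) 2 × CuspForm (Gamma0 N) 2) :=
    LinearMap.finrank_range_of_inj (PeriodInj.periodHomPair_injective N)
  rw [h3, Module.finrank_prod]
  omega

end Fermat.Agent.S21.Assembly
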