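/-
Program C / S21 (UP1a, helper10): equivariant primitives of weight-2 cusp forms on `Γ₀(N)`.

* `prim f`                         : the primitive of `f` vanishing at `i∞` (`S22.primInfty`).
* `hasEquivariantPrimitive_prim`   : `ModularCurve.HasEquivariantPrimitive N f (prim f)`.
* `exists_equivariantPrimitive`
* `eq_prim`                        : every equivariant primitive IS `prim f`.
* `periodMap_eq`, `periodMap_apply`: the Prelude `periodMap` through any equivariant primitive.
* `periodMap_add`, `periodMap_smul`, `periodMapLinear`, `existsPeriodMapLinear`.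
* `periodHomPair_apply`            : explicit formula for the Prelude `periodHomPair`.
* `prim_SL`                        : `prim f (δ • w) = c_δ + primInfty (f ∣[2] δ) w`, with the second
                                     term tending to `0` at `i∞` (`tendsto_primInfty_slash`).
-/
import Fermat.Agent.S22.Separation
import Fermat.Prelude.Def_ModularCurve_PeriodHomPair

set_option autoImplicit false

namespace Fermat.Agent.S21.Primitive

open UpperHalfPlane hiding I
open Complex Filter Topology Asymptotics CongruenceSubgroup ModularCurve ModularCurve.Period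
open scoped MatrixGroups ModularForm Manifold
open Fermat.Agent.S22 Fermat.Agent.S22.Sep

/-! ### Uniform decay of `primInfty` -/

section Decay

variable {φ : ℍ → ℂ}

theorem vertDecay_of_niceDecay (h : NiceDecay φ) : VertDecay φ := by
  obtain ⟨hφ, a, ha, hO⟩ := h
  have := vertDecay_of_isBigO_mul (f := φ) (P := fun _ => (1 : ℂ)) ha hO
    ⟨1, 0, fun τ => by simp⟩
  simpa using this

/-- The primitive vanishing at `i∞` of a holomorphic function with uniform exponential decay
tends to `0` at `i∞`, uniformly in the real part. -/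
theorem tendsto_primInfty_atImInfty (h : NiceDecay φ) :
    Tendsto (primInfty φ) atImInfty (𝓝 0) := by
  have hV := vertDecay_of_niceDecay h
  obtain ⟨hφ, a, ha, hO⟩ := h
  rw [Asymptotics.isBigO_iff] at hO
  obtain ⟨C, hC⟩ := hO
  rw [Filter.eventually_iff, atImInfty_mem] at hC
  obtain ⟨A, hA⟩ := hC
  have hbound : ∀ z : ℍ, A ≤ z.im → ‖primInfty φ z‖ ≤ C / a * Real.exp (-a * z.im) := by
    intro z hz
    rw [primInfty_eq_primC hφ hV]
    refine norm_primC_le (differentiableOn_of_mdiff hφ) hV (coe_mem_UH z) ha fun t ht => ?_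
    have him : 0 < ((z : ℂ) + t * I).im := by
      simp only [Complex.add_im, Complex.mul_im, Complex.ofReal_re, Complex.I_im, mul_one,
        Complex.ofReal_im, Complex.I_re, mul_zero, add_zero]
      exact add_pos_of_pos_of_nonneg z.im_pos ht
    have him' : (ofComplex ((z : ℂ) + t * I)).im = z.im + t := by
      rw [← UpperHalfPlane.coe_im, ofComplex_apply_of_im_pos him]
      simp
    have := hA (ofComplex ((z : ℂ) + t * I)) (by rw [him']; linarith)
    simp only [Set.mem_ofPred_eq, Real.norm_eq_abs, abs_of_pos (Real.exp_pos _), him'] at this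
    simpa [Function.comp] using this
  have hlim : Tendsto (fun z : ℍ => C / a * Real.exp (-a * z.im)) atImInfty (𝓝 0) := by
    have h1 : Tendsto (fun z : ℍ => z.im) atImInfty atTop := tendsto_comap
    have h2 : Tendsto (fun y : ℝ => Real.exp (-a * y)) atTop (𝓝 0) := by
      have : Tendsto (fun y : ℝ => -a * y) atTop atBot := by
        simpa using (tendsto_id.const_mul_atTop_of_neg (neg_neg_of_pos ha))
      exact Real.tendsto_exp_atBot.comp this
    have h3 := (h2.comp h1).const_mul (C / a)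
    simpa using h3
  refine squeeze_zero_norm' ?_ hlim
  rw [Filter.eventually_iff, atImInfty_mem]
  exact ⟨A, fun z hz => hbound z hz⟩

end Decay

/-! ### The primitive of a weight-2 cusp form -/

variable {N : ℕ} [NeZero N]

/-- The primitive of the weight-2 cusp form `f` vanishing at `i∞`. -/
noncomputable def prim (f : CuspForm (Gamma0 N) 2) : ℍ → ℂ := primInfty ⇑f

theorem eichF_zero_eq (φ : ℍ → ℂ) (z : ℍ) (x y : ℂ) : eichF 0 φ z x y = primInfty φ z := by
  unfold eichF
  simp

theorem prim_hasDerivAt (f : CuspForm (Gamma0 N) 2) (τ : ℍ) :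
    HasDerivAt (prim f ∘ ofComplex) (f τ) (τ : ℂ) := by
  have h := niceDecay_cuspForm f
  exact primInfty_hasDerivAt h.1 (vertDecay_of_niceDecay h) τ

theorem prim_tendsto (f : CuspForm (Gamma0 N) 2) : Tendsto (prim f) atImInfty (𝓝 0) :=
  tendsto_primInfty_atImInfty (niceDecay_cuspForm f)

theorem tendsto_primInfty_slash (f : CuspForm (Gamma0 N) 2) (δ : SL(2, ℤ)) :
    Tendsto (primInfty (⇑f ∣[(2 : ℤ)] δ)) atImInfty (𝓝 0) :=
  tendsto_primInfty_atImInfty (niceDecay_slash f δ)

/-- Transformation under `SL(2,ℤ)`: `prim f (δ • w) = c_δ + primInfty (f ∣[2] δ) w`. -/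
theorem prim_SL (f : CuspForm (Gamma0 N) 2) (δ : SL(2, ℤ)) :
    ∃ c : ℂ, ∀ w : ℍ, prim f (δ • w) = c + primInfty (⇑f ∣[(2 : ℤ)] δ) w := by
  have h1 : NiceDecay (⇑f) := niceDecay_cuspForm f
  have h2 : NiceDecay (⇑f ∣[((0 : ℕ) : ℤ) + 2] δ) := by
    have := niceDecay_slash f δ
    simpa using this
  refine ⟨prim f (δ • UpperHalfPlane.I) - primInfty (⇑f ∣[(2 : ℤ)] δ) UpperHalfPlane.I,
    fun w => ?_⟩
  have key := eichF_SL_sub_const (n := 0) δ h1 h2 0 0 w UpperHalfPlane.I
  simp only [eichF_zero_eq] at key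
  have e : (⇑f ∣[((0 : ℕ) : ℤ) + 2] δ) = (⇑f ∣[(2 : ℤ)] δ) := by
    norm_num
  rw [e] at key
  unfold prim
  linear_combination key

/-- `primInfty` of a periodic function is periodic. -/
theorem primInfty_vadd_of_periodic {φ : ℍ → ℂ} {M : ℝ} (hper : ∀ w : ℍ, φ (M +ᵥ w) = φ w)
    (w : ℍ) : primInfty φ (M +ᵥ w) = primInfty φ w := by
  unfold primInfty
  congr 2
  refine MeasureTheory.setIntegral_congr_fun measurableSet_Ioi fun t ht => ?_
  have ht' : (0 : ℝ) < t := ht
  have him : 0 < ((w : ℂ) + t * I).im := by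
    simp only [Complex.add_im, Complex.mul_im, Complex.ofReal_re, Complex.I_im, mul_one,
      Complex.ofReal_im, Complex.I_re, mul_zero, add_zero]
    exact add_pos w.im_pos ht'
  have him2 : 0 < (((M +ᵥ w : ℍ) : ℂ) + t * I).im := by
    simp only [Complex.add_im, Complex.mul_im, Complex.ofReal_re, Complex.I_im, mul_one,
      Complex.ofReal_im, Complex.I_re, mul_zero, add_zero, UpperHalfPlane.coe_im,
      UpperHalfPlane.vadd_im]
    exact add_pos w.im_pos ht'
  have e : ofComplex (((M +ᵥ w : ℍ) : ℂ) + t * I) = M +ᵥ ofComplex ((w : ℂ) + t * I) := by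
    apply UpperHalfPlane.ext
    rw [ofComplex_apply_of_im_pos him2]
    show ((M +ᵥ w : ℍ) : ℂ) + t * I = ((M +ᵥ ofComplex ((w : ℂ) + t * I) : ℍ) : ℂ)
    rw [UpperHalfPlane.coe_vadd, UpperHalfPlane.coe_vadd, ofComplex_apply_of_im_pos him]
    show (M : ℂ) + (w : ℂ) + t * I = (M : ℂ) + ((w : ℂ) + t * I)
    ring
  show φ (ofComplex (((M +ᵥ w : ℍ) : ℂ) + t * I)) = φ (ofComplex ((w : ℂ) + t * I))
  rw [e, hper]

/-- Periodicity of `prim f` at all cusps, with a uniform period. -/
theorem prim_periodic (f : CuspForm (Gamma0 N) 2) :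
    ∃ M : ℕ, 0 < M ∧ ∀ (δ : SL(2, ℤ)) (w : ℍ),
      prim f (δ • ((M : ℝ) +ᵥ w)) = prim f (δ • w) := by
  obtain ⟨M, hM, h⟩ := exists_period_slash f
  refine ⟨M, hM, fun δ w => ?_⟩
  obtain ⟨c, hc⟩ := prim_SL f δ
  rw [hc, hc, primInfty_vadd_of_periodic (h δ).2]

theorem hasEquivariantPrimitive_prim (f : CuspForm (Gamma0 N) 2) :
    HasEquivariantPrimitive N f (prim f) := by
  refine ⟨prim_hasDerivAt f, prim_tendsto f, ?_, ?_⟩
  · intro γ
    obtain ⟨c, hc⟩ := prim_SL f (γ : SL(2, ℤ))
    have hsl : (⇑f ∣[(2 : ℤ)] (γ : SL(2, ℤ))) = ⇑f := slash_eq_of_mem_Gamma0 f γ.2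
    refine ⟨c, fun z => ?_⟩
    rw [hc z, hsl]
    unfold prim
    ring
  · intro δ
    obtain ⟨c, hc⟩ := prim_SL f δ
    refine ⟨c, ?_⟩
    have h := (tendsto_primInfty_slash f δ).const_add c
    rw [add_zero] at h
    exact h.congr fun w => (hc w).symm

theorem exists_equivariantPrimitive (N : ℕ) [NeZero N] (f : CuspForm (Gamma0 N) 2) :
    ∃ F : ℍ → ℂ, HasEquivariantPrimitive N f F :=
  ⟨prim f, hasEquivariantPrimitive_prim f⟩

/-- Two functions on `ℍ` with the same derivative differ by a constant. -/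
theorem sub_const_of_hasDerivAt {F G : ℍ → ℂ} {φ : ℍ → ℂ}
    (hF : ∀ τ : ℍ, HasDerivAt (F ∘ ofComplex) (φ τ) (τ : ℂ))
    (hG : ∀ τ : ℍ, HasDerivAt (G ∘ ofComplex) (φ τ) (τ : ℂ)) :
    ∃ c : ℂ, ∀ z : ℍ, F z - G z = c := by
  set H : ℂ → ℂ := fun w => (F ∘ ofComplex) w - (G ∘ ofComplex) w with hH
  have hder : ∀ w ∈ upperHalfPlaneSet, HasDerivAt H 0 w := by
    intro w hw
    have := (hF ⟨w, hw⟩).sub (hG ⟨w, hw⟩)
    rw [sub_self] at this
    exact this
  obtain ⟨c, hc⟩ := isOpen_upperHalfPlaneSet.exists_is_const_of_deriv_eq_zero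
    (convex_halfSpace_im_gt 0).isPreconnected
    (fun w hw => (hder w hw).differentiableAt.differentiableWithinAt)
    (fun w hw => (hder w hw).deriv)
  refine ⟨c, fun z => ?_⟩
  have := hc (z : ℂ) z.im_pos
  simpa [hH, ofComplex_apply] using this

/-- Every equivariant primitive of `f` is `prim f`. -/
theorem eq_prim {f : CuspForm (Gamma0 N) 2} {F : ℍ → ℂ} (hF : HasEquivariantPrimitive N f F) :
    F = prim f := by
  obtain ⟨c, hc⟩ := sub_const_of_hasDerivAt hF.1 (prim_hasDerivAt f)
  have h1 : Tendsto (fun z : ℍ => F z - prim f z) atImInfty (𝓝 (0 - 0)) :=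
    hF.2.1.sub (prim_tendsto f)
  have h2 : Tendsto (fun z : ℍ => F z - prim f z) atImInfty (𝓝 c) :=
    tendsto_const_nhds.congr fun z => (hc z).symm
  have hc0 : c = 0 := by
    have := tendsto_nhds_unique h2 h1
    simpa using this
  funext z
  have := hc z
  rw [hc0] at this
  exact sub_eq_zero.mp this

/-! ### The Prelude period map -/

theorem periodMap_eq {f : CuspForm (Gamma0 N) 2} {F : ℍ → ℂ}
    (hF : HasEquivariantPrimitive N f F) : periodMap N f = hF.2.2.1.periodHom := by
  obtain ⟨F₀, h₀, hP⟩ := periodMap_def N f hF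
  rw [hP]
  have e : F₀ = F := (eq_prim h₀).trans (eq_prim hF).symm
  subst e
  rfl

theorem periodMap_apply {f : CuspForm (Gamma0 N) 2} {F : ℍ → ℂ}
    (hF : HasEquivariantPrimitive N f F) (γ : Gamma0 N) (z : ℍ) :
    periodMap N f (Additive.ofMul γ) = F ((γ : SL(2, ℤ)) • z) - F z := by
  rw [periodMap_eq hF, IsEquivariantPrimitive.periodHom_apply]
  exact (hF.2.2.1.sub_eq_period γ z).symm

theorem periodMap_apply_prim (f : CuspForm (Gamma0 N) 2) (γ : Gamma0 N) (z : ℍ) :
    periodMap N f (Additive.ofMul γ) = prim f ((γ : SL(2, ℤ)) • z) - prim f z :=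
  periodMap_apply (hasEquivariantPrimitive_prim f) γ z

omit [NeZero N] in
theorem hasEquivariantPrimitive_add {f g : CuspForm (Gamma0 N) 2} {F G : ℍ → ℂ}
    (hF : HasEquivariantPrimitive N f F) (hG : HasEquivariantPrimitive N g G) :
    HasEquivariantPrimitive N (f + g) (F + G) := by
  refine ⟨fun τ => ?_, ?_, fun γ => ?_, fun δ => ?_⟩
  · have := (hF.1 τ).add (hG.1 τ)
    exact this
  · have := hF.2.1.add hG.2.1
    rw [add_zero] at this
    exact this
  · obtain ⟨c, hc⟩ := hF.2.2.1 γ
    obtain ⟨d, hd⟩ := hG.2.2.1 γ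
    refine ⟨c + d, fun z => ?_⟩
    simp only [Pi.add_apply]
    rw [← hc z, ← hd z]
    ring
  · obtain ⟨L, hL⟩ := hF.2.2.2 δ
    obtain ⟨M, hM⟩ := hG.2.2.2 δ
    exact ⟨L + M, hL.add hM⟩

omit [NeZero N] in
theorem hasEquivariantPrimitive_smul (a : ℂ) {f : CuspForm (Gamma0 N) 2} {F : ℍ → ℂ}
    (hF : HasEquivariantPrimitive N f F) :
    HasEquivariantPrimitive N (a • f) (a • F) := by
  refine ⟨fun τ => ?_, ?_, fun γ => ?_, fun δ => ?_⟩
  · have := (hF.1 τ).const_mul a
    exact this
  · have := hF.2.1.const_mul a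
    rw [mul_zero] at this
    exact this
  · obtain ⟨c, hc⟩ := hF.2.2.1 γ
    refine ⟨a * c, fun z => ?_⟩
    simp only [Pi.smul_apply, smul_eq_mul]
    rw [← hc z]
    ring
  · obtain ⟨L, hL⟩ := hF.2.2.2 δ
    exact ⟨a * L, hL.const_mul a⟩

theorem periodMap_add (f g : CuspForm (Gamma0 N) 2) :
    periodMap N (f + g) = periodMap N f + periodMap N g := by
  refine AddMonoidHom.ext fun γ => ?_
  have hf := hasEquivariantPrimitive_prim f
  have hg := hasEquivariantPrimitive_prim g
  have h1 := periodMap_apply (hasEquivariantPrimitive_add hf hg) (Additive.toMul γ)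
    UpperHalfPlane.I
  have h2 := periodMap_apply hf (Additive.toMul γ) UpperHalfPlane.I
  have h3 := periodMap_apply hg (Additive.toMul γ) UpperHalfPlane.I
  simp only [ofMul_toMul] at h1 h2 h3
  rw [AddMonoidHom.add_apply, h1, h2, h3]
  simp only [Pi.add_apply]
  ring

theorem periodMap_smul (a : ℂ) (f : CuspForm (Gamma0 N) 2) :
    periodMap N (a • f) = a • periodMap N f := by
  refine AddMonoidHom.ext fun γ => ?_
  have hf := hasEquivariantPrimitive_prim f
  have h1 := periodMap_apply (hasEquivariantPrimitive_smul a hf) (Additive.toMul γ)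
    UpperHalfPlane.I
  have h2 := periodMap_apply hf (Additive.toMul γ) UpperHalfPlane.I
  simp only [ofMul_toMul] at h1 h2
  rw [AddMonoidHom.smul_apply, h1, h2]
  simp only [Pi.smul_apply, smul_eq_mul]
  ring

/-- The period map as a `ℂ`-linear map. -/
noncomputable def periodMapLinear (N : ℕ) [NeZero N] :
    CuspForm (Gamma0 N) 2 →ₗ[ℂ] (Additive (Gamma0 N) →+ ℂ) where
  toFun f := periodMap N f
  map_add' := periodMap_add
  map_smul' := periodMap_smul

@[simp]
theorem periodMapLinear_apply (f : CuspForm (Gamma0 N) 2) :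
    periodMapLinear N f = periodMap N f := rfl

theorem existsPeriodMapLinear (N : ℕ) [NeZero N] : ExistsPeriodMapLinear N :=
  ⟨periodMapLinear N, fun _ => rfl⟩

/-- Explicit formula for the Prelude's `periodHomPair`. -/
theorem periodHomPair_apply (f g : CuspForm (Gamma0 N) 2) :
    periodHomPair N (f, g) =
      (periodMap N f + charInvolution N ℂ ℂ (periodMap N f)) +
        (periodMap N g - charInvolution N ℂ ℂ (periodMap N g)) := by
  obtain ⟨pml, hpml, hdef⟩ := periodHomPair_def N (existsPeriodMapLinear N)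
  rw [hdef]
  simp only [LinearMap.coprod_apply, LinearMap.comp_apply, LinearMap.add_apply,
    LinearMap.sub_apply, LinearMap.id_apply, hpml]

/-- Pointwise form. -/
theorem periodHomPair_apply_apply (f g : CuspForm (Gamma0 N) 2) (γ : Gamma0 N) :
    periodHomPair N (f, g) (Additive.ofMul γ) =
      (periodMap N f (Additive.ofMul γ) +
          periodMap N f (Additive.ofMul (jConjGamma0 N γ))) +
        (periodMap N g (Additive.ofMul γ) -
          periodMap N g (Additive.ofMul (jConjGamma0 N γ))) := by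
  rw [periodHomPair_apply]
  rfl

end Fermat.Agent.S21.Primitive
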