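/-
C-S21 (UP1b part 2), helper11: the conjugate cusp form `conjForm f = f ∣[2] J`,
`conjForm f z = conj (f (-conj z))`, and the symmetry of the period map under `γ ↦ JγJ`.
-/
import Mathlib
import Fermat.Prelude.Def_ModularCurve_PeriodHomPair
import Fermat.Agent.S21.PeriodPrim

set_option autoImplicit false

namespace Fermat.Agent.S21.ConjForm

open UpperHalfPlane CongruenceSubgroup Filter Topology ModularCurve ModularCurve.Period
open scoped MatrixGroups ModularForm ComplexConjugate
open Matrix.SpecialLinearGroup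

variable {N : ℕ}

/-- Conjugating the image of an element of `SL(2, ℤ)` by `J = diag(-1, 1)`. -/
theorem J_mul_mapGL_mul_J (γ : SL(2, ℤ)) :
    J * (mapGL ℝ γ : GL (Fin 2) ℝ) * J = mapGL ℝ (jConjSL γ) := by
  ext i j
  fin_cases i <;> fin_cases j <;>
    simp [Matrix.mul_apply, Fin.sum_univ_two, jConjMat, Matrix.vecMul, dotProduct]

theorem J_mul_J : (J : GL (Fin 2) ℝ) * J = 1 := by
  have := J_sq
  rwa [sq] at this

theorem J_inv : (J : GL (Fin 2) ℝ)⁻¹ = J := inv_eq_of_mul_eq_one_right J_mul_J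

open ConjAct Pointwise in
/-- `Γ₀(N)` (inside `GL(2, ℝ)`) is normalised by `J`. -/
theorem conj_Gamma0_eq (N : ℕ) :
    toConjAct (J : GL (Fin 2) ℝ)⁻¹ • ((Gamma0 N).map (mapGL ℝ) : Subgroup (GL (Fin 2) ℝ))
      = (Gamma0 N).map (mapGL ℝ) := by
  ext x
  rw [Subgroup.mem_pointwise_smul_iff_inv_smul_mem, ← map_inv, inv_inv, ConjAct.smul_def,
    ConjAct.ofConjAct_toConjAct, J_inv]
  constructor
  · rintro ⟨γ, hγ, hx⟩
    refine ⟨jConjSL γ, jConjSL_mem_Gamma0 hγ, ?_⟩
    rw [← J_mul_mapGL_mul_J, hx]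
    simp only [mul_assoc, J_mul_J, mul_one]
    rw [← mul_assoc, J_mul_J, one_mul]
  · rintro ⟨γ, hγ, rfl⟩
    exact ⟨jConjSL γ, jConjSL_mem_Gamma0 hγ, (J_mul_mapGL_mul_J γ).symm⟩

/-- The conjugate cusp form `z ↦ conj (f (-conj z))`. -/
noncomputable def conjForm (f : CuspForm (Gamma0 N) 2) : CuspForm (Gamma0 N) 2 where
  toFun := (f : ℍ → ℂ) ∣[(2 : ℤ)] J
  slash_action_eq' := fun γ hγ =>
    (CuspForm.translate f J).slash_action_eq' γ ((conj_Gamma0_eq N).symm ▸ hγ)
  holo' := (CuspForm.translate f J).holo'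
  zero_at_cusps' := fun hc =>
    (CuspForm.translate f J).zero_at_cusps' ((conj_Gamma0_eq N).symm ▸ hc)

theorem coe_conjForm (f : CuspForm (Gamma0 N) 2) :
    (conjForm f : ℍ → ℂ) = (f : ℍ → ℂ) ∣[(2 : ℤ)] J := rfl

theorem conjForm_apply (f : CuspForm (Gamma0 N) 2) (z : ℍ) :
    conjForm f z = conj (f (J • z)) := by
  change ((f : ℍ → ℂ) ∣[(2 : ℤ)] J) z = _
  simp [ModularForm.slash_def]

theorem J_smul_J_smul (z : ℍ) : J • (J • z) = z := by
  rw [← mul_smul, J_mul_J, one_smul]

theorem conjForm_conjForm (f : CuspForm (Gamma0 N) 2) : conjForm (conjForm f) = f := by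
  ext z
  rw [conjForm_apply, conjForm_apply, J_smul_J_smul, Complex.conj_conj]

theorem conjForm_add (f g : CuspForm (Gamma0 N) 2) :
    conjForm (f + g) = conjForm f + conjForm g := by
  ext z
  simp only [conjForm_apply, add_apply, map_add]

theorem conjForm_smul (c : ℂ) (f : CuspForm (Gamma0 N) 2) :
    conjForm (c • f) = conj c • conjForm f := by
  ext z
  simp only [conjForm_apply, smul_apply, smul_eq_mul, map_mul]

theorem conjForm_sub (f g : CuspForm (Gamma0 N) 2) :
    conjForm (f - g) = conjForm f - conjForm g := by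
  ext z
  simp only [conjForm_apply, sub_apply, map_sub]

theorem conjForm_neg (f : CuspForm (Gamma0 N) 2) : conjForm (-f) = -conjForm f := by
  ext z
  simp only [conjForm_apply, neg_apply, map_neg]

/-- `JγJ` acts on `J • z` as `J` applied to `γ • z`. -/
theorem jConjSL_smul_J_smul (γ : SL(2, ℤ)) (z : ℍ) : jConjSL γ • (J • z) = J • (γ • z) := by
  rw [ModularGroup.sl_moeb, ModularGroup.sl_moeb]
  change (mapGL ℝ (jConjSL γ) : GL (Fin 2) ℝ) • (J • z) = J • ((mapGL ℝ γ : GL (Fin 2) ℝ) • z)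
  rw [← J_mul_mapGL_mul_J, ← mul_smul, ← mul_smul, mul_assoc, mul_assoc, J_mul_J, mul_one]

open Fermat.Agent.S22 in
theorem Fp_eq_integral (f : ℍ → ℂ) (z : ℍ) :
    PeriodPrim.Fp f z =
      -(Complex.I * ∫ t in Set.Ioi (0 : ℝ), f (ofComplex ((z : ℂ) + t * Complex.I))) := by
  unfold PeriodPrim.Fp
  rw [eichF_eq_integral']
  simp

theorem J_smul_ofComplex_add (z : ℍ) {t : ℝ} (ht : 0 < t) :
    J • (ofComplex ((z : ℂ) + t * Complex.I) : ℍ)
      = ofComplex (((J • z : ℍ) : ℂ) + t * Complex.I) := by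
  have h1 : 0 < ((z : ℂ) + t * Complex.I).im := by
    simp only [Complex.add_im, Complex.mul_im, Complex.ofReal_re, Complex.I_im, mul_one,
      Complex.ofReal_im, Complex.I_re, mul_zero, add_zero]
    exact add_pos z.im_pos ht
  have h2 : 0 < (((J • z : ℍ) : ℂ) + t * Complex.I).im := by
    simp only [Complex.add_im, Complex.mul_im, Complex.ofReal_re, Complex.I_im, mul_one,
      Complex.ofReal_im, Complex.I_re, mul_zero, add_zero]
    exact add_pos (J • z).im_pos ht
  apply UpperHalfPlane.ext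
  rw [coe_J_smul, ofComplex_apply_of_im_pos h1, ofComplex_apply_of_im_pos h2]
  change -conj ((z : ℂ) + t * Complex.I) = ((J • z : ℍ) : ℂ) + t * Complex.I
  rw [coe_J_smul]
  simp only [map_add, map_mul, Complex.conj_ofReal, Complex.conj_I]
  ring

/-- The primitive of the conjugate form. -/
theorem Fp_conjForm (f : CuspForm (Gamma0 N) 2) (z : ℍ) :
    PeriodPrim.Fp (conjForm f) z = -conj (PeriodPrim.Fp f (J • z)) := by
  rw [Fp_eq_integral, Fp_eq_integral]
  have h : ∫ t in Set.Ioi (0 : ℝ), conjForm f (ofComplex ((z : ℂ) + t * Complex.I))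
      = conj (∫ t in Set.Ioi (0 : ℝ), f (ofComplex (((J • z : ℍ) : ℂ) + t * Complex.I))) := by
    rw [← integral_conj]
    refine MeasureTheory.setIntegral_congr_fun measurableSet_Ioi fun t ht => ?_
    simp only [conjForm_apply, J_smul_ofComplex_add z ht]
  rw [h]
  simp only [map_neg, map_mul, Complex.conj_I]
  ring

/-- Symmetry of the period map under `γ ↦ JγJ`. -/
theorem periodMap_jConj [NeZero N] (f : CuspForm (Gamma0 N) 2) (γ : Gamma0 N) :
    periodMap N f (Additive.ofMul (jConjGamma0 N γ))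
      = -conj (periodMap N (conjForm f) (Additive.ofMul γ)) := by
  rw [PeriodPrim.periodMap_apply f (jConjGamma0 N γ) (J • UpperHalfPlane.I),
    PeriodPrim.periodMap_apply (conjForm f) γ UpperHalfPlane.I, Fp_conjForm, Fp_conjForm,
    jConjGamma0_coe, jConjSL_smul_J_smul]
  simp only [map_sub, map_neg, Complex.conj_conj]
  ring

/-- The period pairing in terms of `u = f + g` and `v = conjForm (g - f)`:
`periodHomPair (f, g) = P_u + conj ∘ P_v`. -/
theorem periodHomPair_apply_apply [NeZero N] (f g : CuspForm (Gamma0 N) 2) (γ : Gamma0 N) :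
    periodHomPair N (f, g) (Additive.ofMul γ)
      = periodMap N (f + g) (Additive.ofMul γ)
        + conj (periodMap N (conjForm (g - f)) (Additive.ofMul γ)) := by
  have hsub : periodMap N (g - f) = periodMap N g - periodMap N f := by
    have := map_sub (PeriodPrim.periodLin N) g f
    simpa using this
  have h1 : periodMap N (conjForm (g - f)) (Additive.ofMul γ)
      = -conj (periodMap N (g - f) (Additive.ofMul (jConjGamma0 N γ))) := by
    rw [periodMap_jConj (g - f) γ]
    simp
  rw [h1, hsub, PeriodPrim.periodHomPair_apply, PeriodPrim.periodMap_add]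
  simp only [AddMonoidHom.add_apply, AddMonoidHom.sub_apply, charInvolution_apply,
    toMul_ofMul, map_neg, Complex.conj_conj]
  ring

/-- If the period pairing of `(f, g)` vanishes then `H = F_u + conj ∘ F_v` is `Γ₀(N)`-invariant,
where `u = f + g`, `v = conjForm (g - f)` and `F_h = PeriodPrim.Fp h`. -/
theorem Fp_add_conj_Fp_invariant [NeZero N] (f g : CuspForm (Gamma0 N) 2)
    (h : periodHomPair N (f, g) = 0) (γ : Gamma0 N) (z : ℍ) :
    PeriodPrim.Fp (f + g) ((γ : SL(2, ℤ)) • z)
        + conj (PeriodPrim.Fp (conjForm (g - f)) ((γ : SL(2, ℤ)) • z))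
      = PeriodPrim.Fp (f + g) z + conj (PeriodPrim.Fp (conjForm (g - f)) z) := by
  have h0 := periodHomPair_apply_apply f g γ
  rw [h, AddMonoidHom.zero_apply, PeriodPrim.periodMap_apply (f + g) γ z,
    PeriodPrim.periodMap_apply (conjForm (g - f)) γ z, map_sub] at h0
  linear_combination -h0

end Fermat.Agent.S21.ConjForm
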