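/-
S21 (Eichler–Shimura), analytic half, part 3 (helper26): a maximum principle on `Γ \ ℍ*`.

`eq_const_of_family`: a finite family `G i` of holomorphic, `h`-periodic functions on `ℍ`, bounded
at `i∞`, such that every value `‖G i z‖` is also a value `‖G j w‖` with `Y ≤ im w` — then some
`G i` is constant.  (Pass to the `q`-disc, compactness of the closed disc of radius
`exp (-2πY/h)`, maximum modulus principle.)

`eq_const_of_norm_invariant`: `Γ ≤ SL(2,ℤ)` of finite index, `G` holomorphic on `ℍ` with `‖G‖`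
`Γ`-invariant, all `G ∘ δ` (`δ ∈ SL(2,ℤ)`) `h`-periodic and bounded at `i∞`: then `G` is constant.
-/
import Mathlib

set_option autoImplicit false

namespace Fermat.Agent.S21.MaxFamily

open UpperHalfPlane hiding I
open Complex Filter Topology Function Metric
open scoped Manifold MatrixGroups

local notation "𝕢" => Periodic.qParam

/-- Maximum principle for a finite family on the `q`-disc. -/
theorem eq_const_of_family {ι : Type*} [Finite ι] [Nonempty ι] {h : ℝ} (hh : 0 < h)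
    (G : ι → ℍ → ℂ)
    (hper : ∀ i, Periodic (G i ∘ ofComplex) h)
    (hhol : ∀ i, MDiff (G i))
    (hbdd : ∀ i, IsBoundedAtImInfty (G i))
    {Y : ℝ} (hY : 0 < Y)
    (hcover : ∀ (i : ι) (z : ℍ), ∃ (j : ι) (w : ℍ), Y ≤ w.im ∧ ‖G i z‖ ≤ ‖G j w‖) :
    ∃ i, ∃ c : ℂ, ∀ z, G i z = c := by
  set ρ : ℝ := Real.exp (-2 * Real.pi * Y / h) with hρ
  have hρ0 : 0 ≤ ρ := (Real.exp_pos _).le
  have hρ1 : ρ < 1 := by
    rw [hρ, Real.exp_lt_one_iff]
    have : 0 < 2 * Real.pi * Y / h := by positivity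
    have e : -2 * Real.pi * Y / h = -(2 * Real.pi * Y / h) := by ring
    rw [e]; linarith
  set g : ι → ℂ → ℂ := fun i => cuspFunction h (G i) with hg
  have hgdiff : ∀ i, DifferentiableOn ℂ (g i) (ball 0 1) := fun i =>
    differentiableOn_cuspFunction_ball hh (hper i) (hhol i) (hbdd i)
  have hgeq : ∀ i (z : ℍ), g i (𝕢 h z) = G i z := fun i z =>
    eq_cuspFunction z hh.ne' (hper i)
  -- maxima on the closed ball of radius ρ
  have hmax : ∀ i, ∃ x ∈ closedBall (0 : ℂ) ρ, IsMaxOn (norm ∘ g i) (closedBall 0 ρ) x := fun i =>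
    (isCompact_closedBall (0 : ℂ) ρ).exists_isMaxOn (nonempty_closedBall.mpr hρ0)
      ((hgdiff i).continuousOn.mono <| closedBall_subset_ball hρ1).norm
  choose x hx hxmax using hmax
  obtain ⟨i₀, hi₀⟩ := Finite.exists_max (fun i => ‖g i (x i)‖)
  set M : ℝ := ‖g i₀ (x i₀)‖ with hM
  -- every value of every `G i` is bounded by `M`
  have hle : ∀ i (z : ℍ), ‖G i z‖ ≤ M := by
    intro i z
    obtain ⟨j, w, hw, hjw⟩ := hcover i z
    have hq : 𝕢 h w ∈ closedBall (0 : ℂ) ρ := by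
      rw [mem_closedBall_zero_iff, Periodic.norm_qParam, hρ]
      apply Real.exp_le_exp.mpr
      have e1 : -2 * Real.pi * (w : ℂ).im / h = -(2 * Real.pi / h) * (w : ℂ).im := by ring
      have e2 : -2 * Real.pi * Y / h = -(2 * Real.pi / h) * Y := by ring
      rw [e1, e2]
      have hpos : 0 < 2 * Real.pi / h := by positivity
      have hw' : Y ≤ (w : ℂ).im := hw
      nlinarith
    calc ‖G i z‖ ≤ ‖G j w‖ := hjw
      _ = ‖g j (𝕢 h w)‖ := by rw [hgeq]
      _ ≤ ‖g j (x j)‖ := hxmax j hq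
      _ ≤ M := hi₀ j
  -- hence `‖g i₀‖ ≤ M` on the open unit ball
  have hball : ∀ q ∈ ball (0 : ℂ) 1, ‖g i₀ q‖ ≤ M := by
    have hne : ∀ q ∈ ball (0 : ℂ) 1, q ≠ 0 → ‖g i₀ q‖ ≤ M := by
      intro q hq hq0
      have hq1 : ‖q‖ < 1 := mem_ball_zero_iff.mp hq
      have him := Periodic.im_invQParam_pos_of_norm_lt_one hh hq1 hq0
      have e : g i₀ q = G i₀ ⟨Periodic.invQParam h q, him⟩ := by
        rw [← hgeq]
        congr 1
        exact (Periodic.qParam_right_inv hh.ne' hq0).symm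
      rw [e]
      exact hle _ _
    intro q hq
    rcases eq_or_ne q 0 with rfl | hq0
    · have hcont : ContinuousAt (g i₀) 0 :=
        ((hgdiff i₀).differentiableAt (ball_mem_nhds _ one_pos)).continuousAt
      have ht : Tendsto (fun q => ‖g i₀ q‖) (𝓝[≠] (0 : ℂ)) (𝓝 ‖g i₀ 0‖) :=
        (hcont.norm.tendsto).mono_left nhdsWithin_le_nhds
      refine le_of_tendsto ht ?_
      have hmem : ball (0 : ℂ) 1 ∈ 𝓝[≠] (0 : ℂ) :=
        mem_nhdsWithin_of_mem_nhds (ball_mem_nhds _ one_pos)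
      filter_upwards [hmem, self_mem_nhdsWithin] with q hq hq0
      exact hne q hq hq0
    · exact hne q hq hq0
  -- maximum modulus principle
  have hx0 : x i₀ ∈ ball (0 : ℂ) 1 := closedBall_subset_ball hρ1 (hx i₀)
  have hconst := Complex.eq_const_of_exists_max (hgdiff i₀) hx0
    (fun q hq => by simpa [hM] using hball q hq)
  refine ⟨i₀, g i₀ (x i₀), fun z => ?_⟩
  have hz : 𝕢 h z ∈ ball (0 : ℂ) 1 := by
    rw [mem_ball_zero_iff]
    exact Periodic.norm_qParam_lt_one hh z.im_pos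
  rw [← hgeq]
  exact hconst hz

/-- Maximum principle on `Γ \ ℍ*` for a holomorphic function whose norm is `Γ`-invariant. -/
theorem eq_const_of_norm_invariant (Γ : Subgroup SL(2, ℤ)) [Γ.FiniteIndex] {h : ℝ} (hh : 0 < h)
    (G : ℍ → ℂ) (hG : MDiff G)
    (hinv : ∀ γ ∈ Γ, ∀ z : ℍ, ‖G (γ • z)‖ = ‖G z‖)
    (hper : ∀ δ : SL(2, ℤ), Periodic ((fun z : ℍ => G (δ • z)) ∘ ofComplex) h)
    (hbdd : ∀ δ : SL(2, ℤ), IsBoundedAtImInfty (fun z : ℍ => G (δ • z))) :
    ∃ c : ℂ, ∀ z, G z = c := by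
  have : Finite (SL(2, ℤ) ⧸ Γ) := Subgroup.finite_quotient_of_finiteIndex
  set r : SL(2, ℤ) ⧸ Γ → SL(2, ℤ) := fun x => (Quotient.out x)⁻¹ with hr
  have hdiff : ∀ δ : SL(2, ℤ), MDiff (fun z : ℍ => G (δ • z)) := by
    intro δ
    have hdet : 0 < (Matrix.SpecialLinearGroup.mapGL ℝ δ : GL (Fin 2) ℝ).det.val := by simp
    exact hG.comp (mdifferentiable_smul hdet)
  obtain ⟨i, c, hc⟩ := eq_const_of_family hh (fun x z => G (r x • z))
    (fun x => hper (r x)) (fun x => hdiff (r x)) (fun x => hbdd (r x))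
    (Y := 1 / 2) (by norm_num) (by
      intro x z
      obtain ⟨g, hg, -⟩ := ModularGroup.exists_one_half_le_im_smul_and_norm_denom_le (r x • z)
      obtain ⟨γ₀, hγ₀⟩ := QuotientGroup.mk_out_eq_mul Γ g
      refine ⟨(QuotientGroup.mk g : SL(2, ℤ) ⧸ Γ), g • (r x • z), hg, le_of_eq ?_⟩
      have e : r (QuotientGroup.mk g : SL(2, ℤ) ⧸ Γ) = (γ₀ : SL(2, ℤ))⁻¹ * g⁻¹ := by
        simp only [hr]
        rw [hγ₀, mul_inv_rev]
      show ‖G (r x • z)‖ = ‖G (r (QuotientGroup.mk g : SL(2, ℤ) ⧸ Γ) • (g • (r x • z)))‖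
      rw [e, mul_smul, inv_smul_smul]
      exact (hinv _ (Γ.inv_mem γ₀.2) _).symm)
  refine ⟨c, fun z => ?_⟩
  have := hc ((r i)⁻¹ • z)
  simpa using this

end Fermat.Agent.S21.MaxFamily
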