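/-
S20/S23 helper (helper26): a linearly independent family of `≥ genusFormula N` cusp forms of weight 2
on `Γ₀(N)` spans everything (from the unconditional upper bound `Assembly.finrank_le_genusFormula`).
-/
import Mathlib
import Fermat.Agent.S21.Assembly

set_option autoImplicit false

namespace Fermat.Agent.S21.Span

open CongruenceSubgroup ModularCurve

variable (N : ℕ) [NeZero N]

theorem span_eq_top_of_linearIndependent {ι : Type*} [Fintype ι]
    (f : ι → CuspForm (Gamma0 N) 2) (hf : LinearIndependent ℂ f)
    (hcard : genusFormula N ≤ (Fintype.card ι : ℚ)) :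
    Submodule.span ℂ (Set.range f) = ⊤ := by
  have h1 : Fintype.card ι ≤ Module.finrank ℂ (CuspForm (Gamma0 N) 2) :=
    hf.fintype_card_le_finrank
  have h2 : (Module.finrank ℂ (CuspForm (Gamma0 N) 2) : ℚ) ≤ (Fintype.card ι : ℚ) :=
    (Assembly.finrank_le_genusFormula N).trans hcard
  have h3 : Module.finrank ℂ (CuspForm (Gamma0 N) 2) ≤ Fintype.card ι := by exact_mod_cast h2
  exact hf.span_eq_top_of_card_eq_finrank' (le_antisymm h1 h3)

/-- Variant: the lower bound follows from such a family. -/
theorem genusFormula_le_of_linearIndependent {ι : Type*} [Fintype ι]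
    (f : ι → CuspForm (Gamma0 N) 2) (hf : LinearIndependent ℂ f)
    (hcard : genusFormula N ≤ (Fintype.card ι : ℚ)) :
    genusFormula N ≤ (Module.finrank ℂ (CuspForm (Gamma0 N) 2) : ℚ) := by
  have h1 : Fintype.card ι ≤ Module.finrank ℂ (CuspForm (Gamma0 N) 2) :=
    hf.fintype_card_le_finrank
  exact hcard.trans (by exact_mod_cast h1)

end Fermat.Agent.S21.Span
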